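import Fermat.Agent.LoweringAtP.Three.Lowering

/-!
# Lowering at every odd prime

For an odd prime `p ∥ M` and a model which at `p` is semistable and peu ramifié, residual
modularity of level `M` gives level `M / p`; for `p = 3` this uses the auxiliary covering,
for `p ≥ 5` an auxiliary level.
-/

noncomputable section

open ModularCurve WeierstrassCurve

namespace Fermat.Agent.LoweringAtP.Three

local notation "Qbar" => AlgebraicClosure ℚ

/-- **Lowering at an odd prime**, good or multiplicative and peu ramifié. -/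
theorem lowering_at_odd {W : WeierstrassCurve ℤ} {p : ℕ} [hp : Fact p.Prime] (hp2 : p ≠ 2)
    (hΔ : W.Δ ≠ 0) (hsemi : (p : ℤ) ∣ W.Δ → ¬ (p : ℤ) ∣ W.c₄)
    (hfin : (W.map (Int.castRingHom ℚ)).IsPeuRamifieeAt p p)
    (hirr : W.ModRepIsIrreducible p) {M : ℕ} (hM : 0 < M) (hpM : p ∣ M) (hp2M : ¬ p ^ 2 ∣ M)
    (hmod : W.IsResiduallyModularOfLevel p M) : W.IsResiduallyModularOfLevel p (M / p) := by
  refine lowering_of_flat hp2 hΔ hsemi hfin hirr (fun hN hflat hm => ?_) hM hpM hp2M hmod
  rcases Nat.lt_or_ge p 5 with h5 | h5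
  · obtain rfl : p = 3 := by
      have h2 := hp.out.two_le
      interval_cases p
      · exact absurd rfl hp2
      · rfl
      · exact absurd hp.out (by norm_num)
    exact lowering_three_of_flat hΔ hirr hN hflat hm
  · exact OddPrimes.lowering_of_levels hp2 hΔ hirr hflat (OddPrimes.hasLevels_of_five_le h5 hN) hm

end Fermat.Agent.LoweringAtP.Three
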