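import Fermat.Agent.LoweringAtP.HeckeCompat.HeckeModL
import Fermat.Agent.LoweringAtP.HeckeCompat.LevelIncl
import Fermat.Agent.LoweringAtP.HeckeCompat.Mazur
import Fermat.Agent.LoweringAtP.Model.UnitOrders

/-!
# An unramified sheet over every cusp

`t` a prime not dividing `N`.  The modular equation of level `t` is
`X ^ (t + 1) + Y ^ (t + 1) - c X ^ t Y ^ t + …`, so above a pole of order `a` of `j_N` the pole of
`j_{N t}` has order `t e a` or `e a / t`, and the norm shows that the first happens with `e = 1`.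
-/

noncomputable section

namespace Fermat.Agent.LoweringAtP.Three

open Polynomial AlgebraicCurve ModularCurve Fermat.Agent.Igusa

section Series

variable {K : Type*} [Field K]

/-- `jv η m` has order `-m`. -/
theorem order_jv (η : Kˣ) {m : ℕ} (hm : m ≠ 0) :
    jv η m ≠ 0 ∧ (jv η m).order = -(m : ℤ) := by
  have h : (jv η m).coeff (-(m : ℤ)) ≠ 0 := by rw [jv_coeff_neg η hm]; exact Units.ne_zero _
  exact ⟨fun e => h (by rw [e]; rfl), Model.order_eq_of_coeff h fun _ hn => jv_coeff_of_lt η hm hn⟩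

/-- A polynomial of degree `d` in `jv 1 m` has no coefficient below `-m d`. -/
theorem evalAt_jv_coeff_of_lt {m : ℕ} (hm : m ≠ 0) (P : Polynomial K) {n : ℤ}
    (hn : n < -((m * P.natDegree : ℕ) : ℤ)) : (evalAt (jv (1 : Kˣ) m) P).coeff n = 0 := by
  rw [evalAt, coe_eval₂RingHom, eval₂_eq_sum_range, HahnSeries.coeff_sum]
  refine Finset.sum_eq_zero fun i hi => ?_
  rw [Finset.mem_range] at hi
  rw [HahnSeries.C_mul_eq_smul, HahnSeries.coeff_smul, jv_one_pow_coeff_of_lt hm, smul_zero]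
  have : m * i ≤ m * P.natDegree := Nat.mul_le_mul_left m (Nat.lt_succ_iff.mp hi)
  omega

/-- The degree from a bound on the poles. -/
theorem mul_natDegree_le {m : ℕ} (hm : m ≠ 0) {P : Polynomial K} {B : ℕ}
    (h : ∀ n < -(B : ℤ), (evalAt (jv (1 : Kˣ) m) P).coeff n = 0) : m * P.natDegree ≤ B := by
  by_contra hlt
  push Not at hlt
  have h1 := h (-((m * P.natDegree : ℕ) : ℤ)) (by omega)
  rw [coeff_evalAt_jv hm, leadingCoeff_eq_zero] at h1
  rw [h1, natDegree_zero, mul_zero] at hlt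
  omega

/-- The degree from the exact pole. -/
theorem mul_natDegree_eq {m : ℕ} (hm : m ≠ 0) {P : Polynomial K} {B : ℕ}
    (h : ∀ n < -(B : ℤ), (evalAt (jv (1 : Kˣ) m) P).coeff n = 0)
    (hB : (evalAt (jv (1 : Kˣ) m) P).coeff (-(B : ℤ)) ≠ 0) :
    P ≠ 0 ∧ m * P.natDegree = B := by
  refine ⟨fun h0 => hB (by rw [h0, map_zero]; rfl), le_antisymm (mul_natDegree_le hm h)
    (not_lt.mp fun hlt => hB (evalAt_jv_coeff_of_lt hm P (by omega)))⟩

/-- The constant term of `∏ (X - r)`, all `r` of order `-1`, has order minus the number of roots. -/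
theorem prod_sub_coeff_zero (s : Multiset (LaurentSeries K))
    (hs : ∀ r ∈ s, r ≠ 0 ∧ r.order = -1) :
    (s.map fun r => (X : Polynomial (LaurentSeries K)) - C r).prod.coeff 0 ≠ 0 ∧
      ((s.map fun r => (X : Polynomial (LaurentSeries K)) - C r).prod.coeff 0).order =
        -(Multiset.card s : ℤ) := by
  induction s using Multiset.induction_on with
  | empty => simp
  | cons r s ih =>
    obtain ⟨hr, hro⟩ := hs r (Multiset.mem_cons_self r s)
    obtain ⟨h1, h2⟩ := ih fun x hx => hs x (Multiset.mem_cons_of_mem hx)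
    rw [Multiset.map_cons, Multiset.prod_cons, mul_coeff_zero, coeff_sub, coeff_X_zero,
      coeff_C_zero,
      zero_sub, Multiset.card_cons]
    refine ⟨mul_ne_zero (neg_ne_zero.mpr hr) h1, ?_⟩
    rw [HahnSeries.order_mul (neg_ne_zero.mpr hr) h1, HahnSeries.order_neg, hro, h2]
    push_cast
    ring

/-- The top terms of a modular equation of prime level. -/
theorem modPoly_shape {t : ℕ} [ht : Fact t.Prime] {Φ : Polynomial (Polynomial K)}
    (hΦ : IsModPoly t Φ) :
    (∀ i, 1 ≤ i → i ≤ t → (Φ.coeff i).natDegree ≤ t) ∧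
      (Φ.coeff t ≠ 0 ∧ (Φ.coeff t).natDegree = t) ∧
      (Φ.coeff 0 ≠ 0 ∧ (Φ.coeff 0).natDegree = t + 1) := by
  classical
  have ht0 : t ≠ 0 := ht.out.ne_zero
  have h2 := ht.out.two_le
  set x := jv (1 : Kˣ) (t * 1) with hx
  set f := Φ.map (evalAt x) with hf
  have hsp : f.Splits := hΦ.splits 1 1 one_ne_zero
  have hnd : f.roots.Nodup := nodup_roots (hΦ.separable 1 1 one_ne_zero)
  have hf0 : f ≠ 0 := (map_evalAt_monic hΦ x).ne_zero
  set r := jv ((1 : Kˣ) ^ t) (t * t * 1) with hr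
  have hrmem : r ∈ f.roots :=
    (mem_roots hf0).mpr ((hΦ.isRoot_iff 1 1 one_ne_zero r).mpr (Or.inl rfl))
  set s := f.roots.erase r with hs
  have hcons : r ::ₘ s = f.roots := Multiset.cons_erase hrmem
  have hcard : Multiset.card f.roots = t + 1 := by
    rw [← hsp.natDegree_eq_card_roots, hf, natDegree_map_evalAt hΦ]
  have hscard : Multiset.card s = t := by
    rw [hs, Multiset.card_erase_of_mem hrmem, hcard]; rfl
  have hmem : ∀ y ∈ s, y ≠ 0 ∧ y.order = -1 := fun y hy => by
    obtain ⟨hne, hy'⟩ := hnd.mem_erase_iff.mp hy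
    rcases (hΦ.isRoot_iff 1 1 one_ne_zero y).mp (isRoot_of_mem_roots hy') with h | ⟨η, -, rfl⟩
    · exact absurd h hne
    · simpa using order_jv η one_ne_zero
  have hlow : ∀ y ∈ s, ∀ n < -((1 : ℕ) : ℤ), y.coeff n = 0 := fun y hy n hn =>
    HahnSeries.coeff_eq_zero_of_lt_order (by rw [(hmem y hy).2]; simpa using hn)
  set h := (s.map fun y => (X : Polynomial (LaurentSeries K)) - C y).prod with hh
  have hfh : f = (X - C r) * h := by
    conv_lhs => rw [hsp.eq_prod_roots_of_monic (map_evalAt_monic hΦ _), ← hcons]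
    rw [Multiset.map_cons, Multiset.prod_cons]
  obtain ⟨hr0, hro⟩ := order_jv ((1 : Kˣ) ^ t) (m := t * t * 1) (by simp [ht0])
  have hrlow : ∀ n < -((t * t : ℕ) : ℤ), r.coeff n = 0 := fun n hn =>
    HahnSeries.coeff_eq_zero_of_lt_order (by rw [hro]; simpa using hn)
  have hhlow : ∀ i, ∀ n < -((1 * (t - i) : ℕ) : ℤ), (h.coeff i).coeff n = 0 := fun i => by
    have := TwoComponent.coeff_prod_sub_eq_zero 1 s hlow i
    rwa [hscard] at this
  have hev : ∀ i, evalAt (jv (1 : Kˣ) t) (Φ.coeff i) = f.coeff i := fun i => by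
    rw [hf, coeff_map, hx, mul_one]
  have hsucc : ∀ i, f.coeff (i + 1) = h.coeff i - r * h.coeff (i + 1) := fun i => by
    rw [hfh, sub_mul, coeff_sub, coeff_X_mul, coeff_C_mul]
  refine ⟨fun i hi1 hit => ?_, ?_, ?_⟩
  · obtain ⟨i, rfl⟩ : ∃ l, i = l + 1 := ⟨i - 1, by omega⟩
    have hB := mul_natDegree_le ht0 (P := Φ.coeff (i + 1)) (B := t * t + (t - (i + 1)))
      fun n hn => by
      rw [hev, hsucc, HahnSeries.coeff_sub, hhlow i n (by
          have : 1 ≤ t * t := Nat.one_le_iff_ne_zero.mpr (mul_ne_zero ht0 ht0)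
          omega), TwoComponent.coeff_mul_eq_zero hrlow (hhlow (i + 1)) n
            (by push_cast at hn ⊢; omega),
        sub_zero]
    by_contra hlt
    push Not at hlt
    have := Nat.mul_le_mul_left t hlt
    rw [Nat.mul_succ] at this
    omega
  · obtain ⟨l, hl⟩ : ∃ l, t = l + 1 := ⟨t - 1, by omega⟩
    have hht : h.coeff t = 1 := by
      have hm : h.Monic := monic_multiset_prod_of_monic _ _ fun y _ => monic_X_sub_C y
      rw [← hscard, ← natDegree_multiset_prod_X_sub_C_eq_card s]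
      exact hm.coeff_natDegree
    have hft : evalAt (jv (1 : Kˣ) t) (Φ.coeff t) = h.coeff l - r := by
      rw [hev, hl, hsucc, ← hl, hht, mul_one]
    have htt : t < t * t := lt_mul_of_one_lt_left ht.out.pos ht.out.one_lt
    obtain ⟨h0, hd⟩ := mul_natDegree_eq ht0 (P := Φ.coeff t) (B := t * t)
      (fun n hn => by
        rw [hft, HahnSeries.coeff_sub, hhlow l n (by push_cast at hn ⊢; omega), hrlow n hn,
          sub_zero])
      (by
        rw [hft, HahnSeries.coeff_sub, hhlow l _ (by omega), zero_sub, neg_ne_zero]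
        have := HahnSeries.coeff_order_eq_zero.not.mpr hr0
        rw [hro, mul_one] at this
        rw [hr, mul_one]
        exact this)
    exact ⟨h0, Nat.eq_of_mul_eq_mul_left ht.out.pos hd⟩
  · obtain ⟨h1, h1o⟩ := prod_sub_coeff_zero s hmem
    have he : evalAt (jv (1 : Kˣ) t) (Φ.coeff 0) = -r * h.coeff 0 := by
      rw [hev, hfh, mul_coeff_zero, coeff_sub, coeff_X_zero, coeff_C_zero, zero_sub]
    have hne : -r * h.coeff 0 ≠ 0 := mul_ne_zero (neg_ne_zero.mpr hr0) h1
    have ho : (-r * h.coeff 0).order = -((t * (t + 1) : ℕ) : ℤ) := by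
      rw [HahnSeries.order_mul (neg_ne_zero.mpr hr0) h1, HahnSeries.order_neg, hro, h1o, hscard]
      push_cast
      ring
    obtain ⟨h0, hd⟩ := mul_natDegree_eq ht0 (P := Φ.coeff 0) (B := t * (t + 1))
      (fun n hn => by
        rw [he]; exact HahnSeries.coeff_eq_zero_of_lt_order (by rw [ho]; exact hn))
      (by rw [he, ← ho]; exact HahnSeries.coeff_order_eq_zero.not.mpr hne)
    exact ⟨h0, Nat.eq_of_mul_eq_mul_left ht.out.pos hd⟩

end Series

/-- Above a pole, the order of a root of the modular equation is one of two values. -/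
theorem ord_root_dichotomy {K E : Type*} [Field K] [Field E] [Algebra K E] (P : Place K E)
    {t : ℕ} [ht : Fact t.Prime] {Φ : Polynomial (Polynomial K)} (hΦ : IsModPoly t Φ) {a b : E}
    (hA : P.ord a < 0) (h : (Φ.map (Polynomial.aeval (R := K) a).toRingHom).eval b = 0) :
    P.ord b = (t : ℤ) * P.ord a ∨ (t : ℤ) * P.ord b = P.ord a := by
  classical
  obtain ⟨hmid, ⟨hct, hdt⟩, hc0, hd0⟩ := modPoly_shape hΦ
  obtain ⟨l, hl⟩ : ∃ l, t = l + 1 := ⟨t - 1, by have := ht.out.two_le; omega⟩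
  have ht1 : (1 : ℤ) < t := by exact_mod_cast ht.out.one_lt
  set A := P.ord a
  set B := P.ord b with hBdef
  set T : ℕ → E := fun i => Polynomial.aeval a (Φ.coeff i) * b ^ i with hT
  have hge := TwoComponent.ord_root_ge t P hΦ.monic hΦ.natDegree_eq
    (TwoComponent.natDegree_coeff_modPoly t hΦ) h
  rw [min_eq_left hA.le] at hge
  rcases hge.eq_or_lt with he | hgt
  · exact Or.inl he.symm
  right
  obtain ⟨hT0ne, hT0⟩ := Model.ord_aeval_of_neg P hA (t + 1) _ hd0 hc0
  have hTtop : T (t + 1) = b ^ (t + 1) := by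
    have hc : Φ.coeff (t + 1) = 1 := by rw [← hΦ.natDegree_eq]; exact hΦ.monic.coeff_natDegree
    simp only [hT, hc, map_one, one_mul]
  have hsum : Polynomial.aeval a (Φ.coeff 0) +
      ((∑ i ∈ Finset.range l, T (i + 1)) + T (t + 1) + T t) = 0 := by
    have hd : (Φ.map (Polynomial.aeval (R := K) a).toRingHom).natDegree < t + 1 + 1 := by
      rw [hΦ.monic.natDegree_map, hΦ.natDegree_eq]; exact Nat.lt_succ_self _
    rw [eval_eq_sum_range' hd, Finset.sum_range_succ, Finset.sum_range_succ] at h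
    simp only [coeff_map] at h
    rw [show Polynomial.aeval a (Φ.coeff 0) = T 0 by simp [hT]]
    conv_rhs => rw [← h]
    rw [show Finset.range t = Finset.range (l + 1) by rw [hl], Finset.sum_range_succ']
    simp only [hT, RingHom.coe_coe, AlgHom.toRingHom_eq_coe]
    ring
  have hclose : ∀ (M : ℤ) {u v : E}, (u = 0 ∨ M < P.ord u) → (v = 0 ∨ M < P.ord v) →
      (u + v = 0 ∨ M < P.ord (u + v)) := by
    intro M u v hu hv
    rcases hu with rfl | hu
    · rw [zero_add]; exact hv
    rcases hv with rfl | hv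
    · rw [add_zero]; exact Or.inr hu
    rcases eq_or_ne (u + v) 0 with h0 | h0
    · exact Or.inl h0
    · exact Or.inr (lt_of_lt_of_le (lt_min hu hv) (FF.min_le_ord_add P h0))
  have hb : b ≠ 0 := by
    rintro rfl
    refine hT0ne ?_
    have : ∀ i, T (i + 1) = 0 := fun i => by simp [hT]
    simpa [this, hl] using hsum
  have hTi : ∀ i, 1 ≤ i → i ≤ t → T i = 0 ∨ (t : ℤ) * A + i * B ≤ P.ord (T i) := by
    intro i h1 h2
    rcases eq_or_ne (Φ.coeff i) 0 with h0 | h0
    · exact Or.inl (by simp [hT, h0])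
    right
    obtain ⟨hne, ho⟩ := Model.ord_aeval_of_neg P hA _ _ rfl h0
    show _ ≤ P.ord (Polynomial.aeval a (Φ.coeff i) * b ^ i)
    rw [P.ord_mul hne (pow_ne_zero _ hb), ho, FF.ord_pow, ← hBdef]
    have : ((Φ.coeff i).natDegree : ℤ) ≤ t := by exact_mod_cast hmid i h1 h2
    nlinarith
  rcases le_or_gt 0 B with hB | hB
  · exfalso
    have hrest : ((∑ i ∈ Finset.range l, T (i + 1)) + T (t + 1) + T t) = 0 ∨
        ((t : ℤ) + 1) * A < P.ord ((∑ i ∈ Finset.range l, T (i + 1)) + T (t + 1) + T t) := by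
      refine hclose _ (hclose _ (Finset.sum_induction _ (fun z => z = 0 ∨ _ < P.ord z)
        (fun _ _ => hclose _) (Or.inl rfl) fun i hi => ?_) (Or.inr ?_)) ?_
      · rw [Finset.mem_range] at hi
        refine (hTi (i + 1) (by omega) (by omega)).imp_right fun h' => lt_of_lt_of_le ?_ h'
        have : (0 : ℤ) ≤ ((i + 1 : ℕ) : ℤ) * B := mul_nonneg (Int.natCast_nonneg _) hB
        linarith
      · rw [hTtop, FF.ord_pow, ← hBdef]
        have : (0 : ℤ) ≤ ((t + 1 : ℕ) : ℤ) * B := mul_nonneg (Int.natCast_nonneg _) hB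
        nlinarith
      · refine (hTi t (by omega) le_rfl).imp_right fun h' => lt_of_lt_of_le ?_ h'
        have : (0 : ℤ) ≤ (t : ℤ) * B := mul_nonneg (Int.natCast_nonneg _) hB
        linarith
    rw [eq_neg_of_add_eq_zero_right hsum, FF.ord_neg, hT0] at hrest
    rcases hrest with h0 | h0
    · exact hT0ne (neg_eq_zero.mp h0)
    · push_cast at h0; exact lt_irrefl _ h0
  · obtain ⟨hne, ho⟩ := Model.ord_aeval_of_neg P hA t _ hdt hct
    have hTne : T t ≠ 0 := mul_ne_zero hne (pow_ne_zero _ hb)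
    have hTt : P.ord (T t) = (t : ℤ) * A + t * B := by
      show P.ord (Polynomial.aeval a (Φ.coeff t) * b ^ t) = _
      rw [P.ord_mul hne (pow_ne_zero _ hb), ho, FF.ord_pow]
    have hrest : ((∑ i ∈ Finset.range l, T (i + 1)) + T (t + 1)) = 0 ∨
        P.ord (T t) < P.ord ((∑ i ∈ Finset.range l, T (i + 1)) + T (t + 1)) := by
      refine hclose _ (Finset.sum_induction _ (fun z => z = 0 ∨ _ < P.ord z)
        (fun _ _ => hclose _) (Or.inl rfl) fun i hi => ?_) (Or.inr ?_)
      · rw [Finset.mem_range] at hi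
        refine (hTi (i + 1) (by omega) (by omega)).imp_right fun h' => lt_of_lt_of_le ?_ h'
        rw [hTt]
        have : ((i + 1 : ℕ) : ℤ) < t := by exact_mod_cast (show i + 1 < t by omega)
        nlinarith
      · rw [hTtop, FF.ord_pow, hTt, ← hBdef]
        push_cast
        nlinarith
    have e := congrArg P.ord (eq_neg_of_add_eq_zero_right hsum)
    rw [FF.ord_neg, hT0, add_comm, FF.ord_add_eq_of_lt P hTne hrest, hTt] at e
    push_cast at e
    linarith

section Cusp

local notation "𝕃" => modularFunctionFieldFullC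

variable {k : Type*} [Field k] [IsAlgClosed k]

omit [IsAlgClosed k] in
theorem eval_aeval_of_isRoot {E : IntermediateField k (LaurentSeries k)}
    {Φ : Polynomial (Polynomial k)} {a b : E}
    (h : (Φ.map (evalAt (a : LaurentSeries k))).IsRoot (b : LaurentSeries k)) :
    (Φ.map (Polynomial.aeval (R := k) a).toRingHom).eval b = 0 := by
  refine (algebraMap E (LaurentSeries k)).injective ?_
  rw [map_zero, ← Polynomial.eval_map_apply, Polynomial.map_map,
    show (algebraMap E (LaurentSeries k)).comp (Polynomial.aeval (R := k) a).toRingHom =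
      evalAt (a : LaurentSeries k) from Polynomial.ringHom_ext
      (fun c => by
        simp only [RingHom.comp_apply, evalAt_C, AlgHom.toRingHom_eq_coe, RingHom.coe_coe,
          Polynomial.aeval_C]
        exact algebraMap_laurentSeries_eq_single k c)
      (by simp)]
  exact h

/-- All `j_d` have poles at a pole of `j`. -/
theorem ord_jv_neg {N : ℕ} (hK : (N : k) ≠ 0)
    {Q : Place k (modularFunctionFieldFullC k N)} (hQ : Q.ord (HeckeCompat.jC k N) < 0) :
    ∀ (d : ℕ) (hd0 : d ≠ 0) (hd : d ∣ N),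
      Q.ord (⟨jv (1 : kˣ) d, jv_mem_full hd0 hd⟩ : modularFunctionFieldFullC k N) < 0 := by
  intro d
  induction d using Nat.strong_induction_on with
  | _ d ih =>
    intro hd0 hd
    rcases eq_or_ne d 1 with rfl | hd1
    · rwa [show (⟨jv (1 : kˣ) 1, _⟩ : modularFunctionFieldFullC k N) = HeckeCompat.jC k N from
        Subtype.ext jv_one_one]
    obtain ⟨r, hr, d', rfl⟩ := Nat.exists_prime_and_dvd hd1
    have : Fact r.Prime := ⟨hr⟩
    obtain ⟨Φ, hΦ⟩ := exists_isModPoly (p := r) (K := k)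
      (natCast_ne_zero_of_dvd hK ((dvd_mul_right r d').trans hd))
    have hd'0 : d' ≠ 0 := right_ne_zero_of_mul hd0
    have hroot := isModPoly_root_down hΦ hd'0
    rw [mul_comm d' r] at hroot
    have h := TwoComponent.ord_root_ge r Q hΦ.monic hΦ.natDegree_eq
      (TwoComponent.natDegree_coeff_modPoly r hΦ)
      (eval_aeval_of_isRoot (a := (⟨_, jv_mem_full hd0 hd⟩ : modularFunctionFieldFullC k N))
        (b := ⟨_, jv_mem_full hd'0 ((dvd_mul_left d' r).trans hd)⟩) hroot)
    have := ih d' (lt_mul_of_one_lt_left (Nat.pos_of_ne_zero hd'0) hr.one_lt) hd'0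
      ((dvd_mul_left d' r).trans hd)
    by_contra hge
    rw [min_eq_right (not_lt.mp hge), mul_zero] at h
    omega

/-- The degree of `X₀(N t) → X₀(N)`. -/
theorem finrankAlong_inclC {N t : ℕ} [NeZero N] [NeZero (N * t)] [ht : Fact t.Prime]
    (hK : ((N * t : ℕ) : k) ≠ 0) (htN : ¬ t ∣ N) :
    finrankAlong k (HeckeCompat.inclC k (dvd_mul_right N t)) = t + 1 := by
  have hNk : (N : k) ≠ 0 := natCast_ne_zero_of_dvd hK (dvd_mul_right N t)
  set φ := HeckeCompat.inclC k (dvd_mul_right N t)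
  have h := Hecke.finrank_adjoin_apply φ (HeckeCompat.jC k N)
  rw [show φ (HeckeCompat.jC k N) = HeckeCompat.jC k (N * t) from Subtype.ext
    (HeckeCompat.coe_inclC _ _),
    Red.finrank_adjoin_eq_relfinrank, Red.finrank_adjoin_eq_relfinrank,
    show ((HeckeCompat.jC k (N * t) : modularFunctionFieldFullC k (N * t)) : LaurentSeries k) =
      Igusa.jv 1 1 from Igusa.jv_one_one.symm,
    show ((HeckeCompat.jC k N : modularFunctionFieldFullC k N) : LaurentSeries k) = Igusa.jv
      1 1 from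
      Igusa.jv_one_one.symm,
    relfinrank_full _ hK, relfinrank_full N hNk, psi_mul_prime (NeZero.ne N) ht.out,
      if_neg htN] at h
  exact (Nat.eq_of_mul_eq_mul_left (psi_pos _)
      (by rw [mul_comm (psi N) (t + 1)] at h ⊢; exact h)).symm

/-- **An unramified place above every cusp.** -/
theorem exists_place_unramified_of_cusp {N t : ℕ} [NeZero N] [NeZero (N * t)] [ht : Fact t.Prime]
    (hK : ((N * t : ℕ) : k) ≠ 0) (htN : ¬ t ∣ N)
    (Q : Place k (modularFunctionFieldFullC k N)) (hQ : Q.ord (HeckeCompat.jC k N) < 0) :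
    ∃ Q' : Place k (modularFunctionFieldFullC k (N * t)), ∀ x,
      Q'.ord (HeckeCompat.inclC k (dvd_mul_right N t) x) = Q.ord x := by
  classical
  have hNk : (N : k) ≠ 0 := natCast_ne_zero_of_dvd hK (dvd_mul_right N t)
  obtain ⟨Φ, hΦ⟩ := exists_isModPoly (p := t) (K := k)
    (natCast_ne_zero_of_dvd hK (dvd_mul_left t N))
  obtain ⟨-, -, hc0, hd0⟩ := modPoly_shape hΦ
  set φ := HeckeCompat.inclC k (dvd_mul_right N t) with hφ
  have hmemN : jv (1 : kˣ) N ∈ (𝕃 k N) := jv_mem_full (NeZero.ne N) dvd_rfl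
  have hmemT : jv (1 : kˣ) (N * t) ∈ (𝕃 k (N * t)) := jv_mem_full (NeZero.ne _) dvd_rfl
  set a : (𝕃 k N) := ⟨_, hmemN⟩ with ha
  set y : (𝕃 k (N * t)) := ⟨_, hmemT⟩ with hy
  have hA : Q.ord a < 0 := ord_jv_neg hNk hQ N (NeZero.ne N) dvd_rfl
  have hdeg : finrankAlong k φ = t + 1 := finrankAlong_inclC hK htN
  let := algebraAlong φ
  have := isScalarTower_along φ
  have : Module.Finite (𝕃 k N) (𝕃 k (N * t)) := Hecke.finiteAlong φ
  have : Algebra.IsIntegral (𝕃 k N) (𝕃 k (N * t)) :=
      Algebra.IsIntegral.of_finite (𝕃 k N) (𝕃 k (N * t))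
  change Module.finrank (𝕃 k N) (𝕃 k (N * t)) = t + 1 at hdeg
  obtain ⟨-, hmin⟩ := TwoComponent.minpoly_top htN hK hΦ hmemN
  let g : (𝕃 k (N * t)) →ₐ[(𝕃 k N)] LaurentSeries k :=
    { (algebraMap (𝕃 k (N * t)) (LaurentSeries k)) with commutes' := fun x => rfl }
  have hminy : minpoly (𝕃 k N) y = Φ.map (evalIn (𝕃 k N) hmemN) := by
    rw [← hmin, ← minpoly.algHom_eq g (algebraMap (𝕃 k (N * t)) (LaurentSeries k)).injective y]
    rfl
  have hnd : (minpoly (𝕃 k N) y).natDegree = Module.finrank (𝕃 k N) (𝕃 k (N * t)) := by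
    rw [hminy, hΦ.monic.natDegree_map, hΦ.natDegree_eq, hdeg]
  have hint : IsIntegral (𝕃 k N) y := Algebra.IsIntegral.isIntegral y
  have htop : IntermediateField.adjoin (𝕃 k N) {y} = ⊤ :=
    (Field.primitive_element_iff_minpoly_natDegree_eq (𝕃 k N) y).mpr hnd
  let pb := (IntermediateField.adjoin.powerBasis hint).map
    ((IntermediateField.equivOfEq htop).trans IntermediateField.topEquiv)
  have hgen : pb.gen = y := rfl
  have hcoe : (evalIn (𝕃 k N) hmemN (Φ.coeff 0) : (𝕃 k N)) = Polynomial.aeval a (Φ.coeff 0) := by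
    refine Subtype.ext ?_
    rw [Model.algebraMap_evalAt]
    have := congrArg (fun P : Polynomial (LaurentSeries k) => P.coeff 0)
      (map_evalIn_map (𝕃 k N) hmemN Φ)
    simpa [coeff_map] using this
  have hnorm : Algebra.norm (𝕃 k N) y = (-1) ^ pb.dim * Polynomial.aeval a (Φ.coeff 0) := by
    have h := Algebra.PowerBasis.norm_gen_eq_coeff_zero_minpoly pb
    rw [hgen, hminy, coeff_map, hcoe] at h
    exact h
  obtain ⟨hne0, ho0⟩ := Model.ord_aeval_of_neg Q hA (t + 1) _ hd0 hc0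
  have hy0 : y ≠ 0 := fun h => (order_jv (1 : kˣ) (NeZero.ne (N * t))).1 (congrArg Subtype.val h)
  have hsum : ∑ w ∈ Q.fiber (𝕃 k (N * t)), w.ord y = ((t : ℤ) + 1) * Q.ord a := by
    rw [← FF.ord_norm Q hy0, hnorm, Q.ord_mul (pow_ne_zero _ (neg_ne_zero.mpr one_ne_zero)) hne0,
      FF.ord_pow, FF.ord_neg, Q.ord_one, mul_zero, zero_add, ho0]
    push_cast
    ring
  have hesum : ∑ w ∈ Q.fiber (𝕃 k (N * t)), (w.ramificationIndex (𝕃 k N) : ℤ) = (t : ℤ) + 1 := by
    have h := FF.sum_ramificationIndex (F' := (𝕃 k (N * t))) Q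
    rw [hdeg] at h
    exact_mod_cast h
  have hw : ∀ w ∈ Q.fiber (𝕃 k (N * t)), ∀ x : (𝕃 k N),
      w.ord (φ x) = w.ramificationIndex (𝕃 k N) * Q.ord x := by
    intro w hw x
    rw [← Place.mem_fiber.mp hw]
    exact w.ord_restrict x
  set G : Place k (𝕃 k (N * t)) → ℤ := fun w =>
    if w.ord y = (t : ℤ) * (w.ramificationIndex (𝕃 k N) * Q.ord a) then
        (w.ramificationIndex (𝕃 k N) : ℤ) else 0
  have ht1 : (1 : ℤ) < t := by exact_mod_cast ht.out.one_lt
  have hkey : ∀ w ∈ Q.fiber (𝕃 k (N * t)),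
      (t : ℤ) * w.ord y = w.ramificationIndex (𝕃 k N) * Q.ord a +
        ((t : ℤ) ^ 2 - 1) * Q.ord a * G w := by
    intro w hwm
    have hpos : (0 : ℤ) < w.ramificationIndex (𝕃 k N) := by exact_mod_cast w.ramificationIndex_pos
    have hroot : (Φ.map (Polynomial.aeval (R := k) (φ a)).toRingHom).eval y = 0 :=
      eval_aeval_of_isRoot (by
        rw [HeckeCompat.coe_inclC]
        exact isModPoly_root_up hΦ (NeZero.ne N))
    rcases ord_root_dichotomy w hΦ
      (by rw [hw w hwm]; exact mul_neg_of_pos_of_neg hpos hA) hroot with h | h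
    · rw [hw w hwm] at h
      simp only [G, if_pos h]
      rw [h]; ring
    · rw [hw w hwm] at h
      simp only [G]
      rw [if_neg, h, mul_zero, add_zero]
      intro h'
      rw [h'] at h
      have hz : ((t : ℤ) ^ 2 - 1) * ((w.ramificationIndex (𝕃 k N) : ℤ) * Q.ord a) = 0 := by
        linear_combination h
      rcases mul_eq_zero.mp hz with h1 | h1
      · nlinarith
      · exact (mul_neg_of_pos_of_neg hpos hA).ne h1
  have hG : ∑ w ∈ Q.fiber (𝕃 k (N * t)), G w = 1 := by
    have h := Finset.sum_congr rfl hkey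
    rw [← Finset.mul_sum, Finset.sum_add_distrib, ← Finset.sum_mul, ← Finset.mul_sum, hsum, hesum]
      at h
    have hz : ((t : ℤ) ^ 2 - 1) * Q.ord a * (∑ w ∈ Q.fiber (𝕃 k (N * t)), G w - 1) = 0 := by
      linear_combination -h
    rcases mul_eq_zero.mp hz with h1 | h1
    · rcases mul_eq_zero.mp h1 with h2 | h2
      · nlinarith
      · omega
    · omega
  obtain ⟨w, hwm, hwG⟩ : ∃ w ∈ Q.fiber (𝕃 k (N * t)), G w ≠ 0 := by
    by_contra hall
    push Not at hall
    rw [Finset.sum_eq_zero hall] at hG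
    exact zero_ne_one hG
  have hle : G w ≤ 1 := hG ▸ Finset.single_le_sum (f := G)
    (fun u _ => by simp only [G]; split_ifs <;> simp) hwm
  have hGw : G w = (w.ramificationIndex (𝕃 k N) : ℤ) := by
    simp only [G] at hwG ⊢
    split_ifs at hwG ⊢ with h
    · rfl
    · exact absurd rfl hwG
  have hpos : (0 : ℤ) < w.ramificationIndex (𝕃 k N) := by exact_mod_cast w.ramificationIndex_pos
  refine ⟨w, fun x => ?_⟩
  rw [hw w hwm, show (w.ramificationIndex (𝕃 k N) : ℤ) = 1 by omega, one_mul]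

end Cusp

end Fermat.Agent.LoweringAtP.Three
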