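import Fermat.Agent.Hecke.MonodromyBar
import Fermat.Agent.MF.Scale
import Fermat.Agent.Mono.PlaceData

/-!
# The two degeneracy maps agree at elliptic places of order three

At a place of `X₀(M r)`, `r` prime, over `j = 0` whose order at `j` is prime to `3`, the maps
`τ ↦ τ` and `τ ↦ r τ` to `X₀(M)` give the same place and the same ramification: the fixing element
`g` generates `ℤ[ω]`, and an element `u + v g` of norm `r` carries `r τ` back to `τ` inside `Γ₀(M)`.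
-/

noncomputable section

namespace Fermat.Agent.LoweringAtP.Three

open AlgebraicCurve CongruenceSubgroup
open UpperHalfPlane hiding I
open ModularCurve (heckeAlphaBar heckeBetaBar qExpand coeffMap modularFunctionFieldBar jqModC)
open Fermat.Agent.Mono (HasPtOrd FC)
open scoped MatrixGroups ModularForm Manifold Topology

local notation "Qbar" => AlgebraicClosure ℚ

/-- A prime `r` dividing `a ^ 2 - t a + 1`, `t = ±1`, is the norm of some `u + v a ≡ 0 (mod r)`. -/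
theorem exists_norm_eq {r : ℕ} (hr : r.Prime) {a t : ℤ} (ht : t ^ 2 = 1)
    (h : (r : ℤ) ∣ a ^ 2 - t * a + 1) :
    ∃ u v : ℤ, u ^ 2 + t * u * v + v ^ 2 = r ∧ (r : ℤ) ∣ u + v * a := by
  have : NeZero r := ⟨hr.ne_zero⟩
  set s := Nat.sqrt r
  let f : Fin (s + 1) × Fin (s + 1) → ZMod r := fun x => (x.1.1 : ZMod r) + (x.2.1 : ZMod r) * a
  obtain ⟨x, y, hxy, hf⟩ : ∃ x y, x ≠ y ∧ f x = f y := by
    refine Fintype.exists_ne_map_eq_of_card_lt f ?_
    rw [ZMod.card, Fintype.card_prod, Fintype.card_fin]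
    exact Nat.lt_succ_sqrt r
  set u : ℤ := (x.1.1 : ℤ) - y.1.1 with hu
  set v : ℤ := (x.2.1 : ℤ) - y.2.1 with hv
  have hdvd : (r : ℤ) ∣ u + v * a := by
    rw [← ZMod.intCast_zmod_eq_zero_iff_dvd, hu, hv]
    simp only [f] at hf
    push_cast
    linear_combination hf
  have hss : (s : ℤ) * s < r := by
    have h1 : s * s ≤ r := Nat.sqrt_le r
    have h2 : s * s ≠ r := fun e => by
      rcases Nat.prime_mul_iff.mp (e ▸ hr) with ⟨hp, h⟩ | ⟨hp, h⟩ <;> rw [h] at hp <;>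
        exact Nat.not_prime_one hp
    exact_mod_cast lt_of_le_of_ne h1 h2
  have hub : u ^ 2 ≤ (s : ℤ) * s := by
    have h1 := x.1.2; have h2 := y.1.2
    rw [← sq]; exact sq_le_sq' (by omega) (by omega)
  have hvb : v ^ 2 ≤ (s : ℤ) * s := by
    have h1 := x.2.2; have h2 := y.2.2
    rw [← sq]; exact sq_le_sq' (by omega) (by omega)
  have huv : u ≠ 0 ∨ v ≠ 0 := by
    by_contra hc
    push Not at hc
    exact hxy (Prod.ext (Fin.ext (by omega)) (Fin.ext (by omega)))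
  set N := u ^ 2 + t * u * v + v ^ 2 with hN
  have hpos : 0 < N := by
    rcases huv with hn | hn <;> rcases sq_eq_one_iff.mp ht with rfl | rfl <;>
      nlinarith [pow_two_pos_of_ne_zero hn, sq_nonneg (u + v), sq_nonneg (u - v), sq_nonneg u,
        sq_nonneg v]
  have hlt : N < 3 * r := by
    rcases sq_eq_one_iff.mp ht with rfl | rfl <;>
      nlinarith [sq_nonneg (u + v), sq_nonneg (u - v)]
  obtain ⟨m, hm⟩ : (r : ℤ) ∣ N := by
    obtain ⟨w, hw⟩ := hdvd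
    obtain ⟨z, hz⟩ := h
    refine ⟨w * (r * w) - 2 * v * a * w + t * v * w + v ^ 2 * z, ?_⟩
    rw [hN, show u = r * w - v * a by omega]
    linear_combination v ^ 2 * hz
  have hr0 : (0 : ℤ) < r := by exact_mod_cast hr.pos
  have hm1 : 0 < m := by nlinarith
  have hm3 : m < 3 := by nlinarith
  refine ⟨u, v, ?_, hdvd⟩
  obtain rfl | rfl : m = 1 ∨ m = 2 := by omega
  · simpa using hm
  exfalso
  have h2 : (2 : ℤ) ∣ N := ⟨r, by rw [hm]; ring⟩
  have heven : (2 : ℤ) ∣ u ∧ (2 : ℤ) ∣ v := by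
    rw [hN, show (2 : ℤ) = ((2 : ℕ) : ℤ) by rfl, ← ZMod.intCast_zmod_eq_zero_iff_dvd] at h2
    push_cast at h2
    rw [show (2 : ℤ) = ((2 : ℕ) : ℤ) by rfl, ← ZMod.intCast_zmod_eq_zero_iff_dvd,
      ← ZMod.intCast_zmod_eq_zero_iff_dvd]
    have ht2 : (t : ZMod 2) = 1 := by rcases sq_eq_one_iff.mp ht with rfl | rfl <;> decide
    rw [ht2] at h2
    revert h2
    generalize (u : ZMod 2) = u'
    generalize (v : ZMod 2) = v'
    revert u' v'
    decide
  obtain ⟨⟨u', hu'⟩, v', hv'⟩ := heven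
  have h4 : (r : ℤ) = 2 * (u' ^ 2 + t * u' * v' + v' ^ 2) := by
    rw [hN, hu', hv'] at hm
    linarith [show (2 * u') ^ 2 + t * (2 * u') * (2 * v') + (2 * v') ^ 2 =
      4 * (u' ^ 2 + t * u' * v' + v' ^ 2) by ring]
  have hr2 : r = 2 := ((Nat.prime_dvd_prime_iff_eq Nat.prime_two hr).mp
    (by exact_mod_cast Dvd.intro (u' ^ 2 + t * u' * v' + v' ^ 2) h4.symm)).symm
  have hs1 : (s : ℤ) * s < 2 := by simpa [hr2] using hss
  rcases huv with hn | hn
  · nlinarith [pow_two_pos_of_ne_zero (show u' ≠ 0 by omega), hub]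
  · nlinarith [pow_two_pos_of_ne_zero (show v' ≠ 0 by omega), hvb]

/-- An element of trace `±1` of `Γ₀(M r)` gives one of `Γ₀(M)` carrying `r τ` to its fixed point
`τ`. -/
theorem exists_smul_scale_eq {M r : ℕ} [NeZero r] (hr : r.Prime) {g : SL(2, ℤ)}
    (hg : g ∈ Gamma0 (M * r)) {τ : ℍ} (hfix : g • τ = τ) (htr : (g 0 0 + g 1 1) ^ 2 = 1) :
    ∃ δ ∈ Gamma0 M, δ • MF.scale r τ = τ := by
  rw [Gamma0_mem, ZMod.intCast_zmod_eq_zero_iff_dvd] at hg
  push_cast at hg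
  obtain ⟨c, hc⟩ := hg
  have hdet : g 0 0 * g 1 1 - g 0 1 * g 1 0 = 1 := by
    rw [← Matrix.det_fin_two]; exact g.2
  obtain ⟨u, v, huv, w, hw⟩ := exists_norm_eq (a := g 0 0) hr htr
    ⟨-(g 0 1 * M * c), by rw [hc] at hdet; linear_combination -hdet⟩
  have hdet' : w * (u + v * g 1 1) - v * g 0 1 * (v * M * c) = 1 := by
    have hr0 : (r : ℤ) ≠ 0 := by exact_mod_cast hr.ne_zero
    refine mul_left_cancel₀ hr0 ?_
    rw [hc] at hdet
    linear_combination huv - (u + v * g 1 1) * hw + v ^ 2 * hdet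
  obtain ⟨δ, h00, h01, h10, h11⟩ : ∃ δ : SL(2, ℤ), δ 0 0 = w ∧ δ 0 1 = v * g 0 1 ∧
      δ 1 0 = v * M * c ∧ δ 1 1 = u + v * g 1 1 :=
    ⟨⟨!![w, v * g 0 1; v * M * c, u + v * g 1 1], by rw [Matrix.det_fin_two_of]; exact hdet'⟩,
      rfl, rfl, rfl, rfl⟩
  refine ⟨δ, ?_, ?_⟩
  · rw [Gamma0_mem, ZMod.intCast_zmod_eq_zero_iff_dvd, h10]
    exact ⟨v * c, by ring⟩
  apply UpperHalfPlane.ext
  have hden := denom_ne_zero (δ : GL (Fin 2) ℝ) (MF.scale r τ)
  rw [ModularGroup.denom_apply, h10, h11] at hden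
  have hgd := denom_ne_zero (g : GL (Fin 2) ℝ) τ
  rw [ModularGroup.denom_apply] at hgd
  have hf := congrArg ((↑) : ℍ → ℂ) hfix
  rw [UpperHalfPlane.coe_specialLinearGroup_apply] at hf
  rw [UpperHalfPlane.coe_specialLinearGroup_apply]
  simp only [algebraMap_int_eq, eq_intCast, Complex.ofReal_intCast, MF.coe_scale,
    h00, h01, h10, h11] at hf hden ⊢
  rw [div_eq_iff hgd] at hf
  rw [div_eq_iff hden]
  have hwc : (u : ℂ) + v * g 0 0 = r * w := by exact_mod_cast hw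
  have hcc : (g 1 0 : ℂ) = M * r * c := by exact_mod_cast hc
  rw [hcc] at hf
  push_cast
  linear_combination (v : ℂ) * hf - (τ : ℂ) * hwc

/-- The trace of an elliptic element of order three. -/
theorem sq_trace_eq_one {g : SL(2, ℤ)} {τ : ℍ} (hfix : g • τ = τ)
    (hζ : IsPrimitiveRoot ((denom g (τ : ℂ)) ^ 2) 3) : (g 0 0 + g 1 1) ^ 2 = 1 := by
  have hdet : g 0 0 * g 1 1 - g 0 1 * g 1 0 = 1 := by
    rw [← Matrix.det_fin_two]; exact g.2
  have hd : (g 0 0 : ℂ) * g 1 1 - g 0 1 * g 1 0 = 1 := by exact_mod_cast hdet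
  have hgd := denom_ne_zero (g : GL (Fin 2) ℝ) τ
  rw [ModularGroup.denom_apply] at hgd hζ
  have hf := congrArg ((↑) : ℍ → ℂ) hfix
  rw [UpperHalfPlane.coe_specialLinearGroup_apply] at hf
  simp only [algebraMap_int_eq, eq_intCast, Complex.ofReal_intCast] at hf
  rw [div_eq_iff hgd] at hf
  set e : ℂ := (g 1 0 : ℂ) * τ + g 1 1 with he
  have h3 := hζ.geom_sum_eq_zero (by norm_num)
  simp only [Finset.sum_range_succ, Finset.sum_range_zero, zero_add, pow_zero, pow_one] at h3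
  have hq : e ^ 2 - ((g 0 0 : ℂ) + g 1 1) * e + 1 = 0 := by
    linear_combination -(g 1 0 : ℂ) * hf - hd + (e + (g 1 0 : ℂ) * τ - (g 0 0 : ℂ)) * he
  have ht : e ^ 2 * (((g 0 0 : ℂ) + g 1 1) ^ 2 - 1) = 0 := by
    linear_combination h3 - (e ^ 2 + ((g 0 0 : ℂ) + g 1 1) * e + 1) * hq
  have := (mul_eq_zero.mp ht).resolve_left (pow_ne_zero _ hgd)
  have h' : (((g 0 0 + g 1 1) ^ 2 : ℤ) : ℂ) = ((1 : ℤ) : ℂ) := by
    push_cast
    linear_combination this
  exact_mod_cast h'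

/-- Orders are invariant under the group. -/
theorem hasPtOrd_smul {Γ : Subgroup SL(2, ℤ)} {k : ℤ} {A : ℍ → ℂ} (hA : MF.IsFormFn Γ k A)
    {δ : SL(2, ℤ)} (hδ : δ ∈ Γ) {τ : ℍ} {a : ℕ} (h : HasPtOrd A τ a) : HasPtOrd A (δ • τ) a := by
  have h1 : X0.ordH (A ∣[k] δ) τ = X0.ordH A (δ • τ) := X0.ordH_slash δ τ
  rw [hA.slash_eq δ hδ, X0.ordH, X0.ordH, (Mono.analyticAt_coe hA.mdiff τ).meromorphicOrderAt_eq,
    (Mono.analyticAt_coe hA.mdiff (δ • τ)).meromorphicOrderAt_eq,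
    show analyticOrderAt (A ∘ ofComplex) ((τ : ℍ) : ℂ) = (a : ℕ∞) from h] at h1
  show analyticOrderAt (A ∘ ofComplex) ((δ • τ : ℍ) : ℂ) = (a : ℕ∞)
  revert h1
  cases analyticOrderAt (A ∘ ofComplex) ((δ • τ : ℍ) : ℂ) with
  | top => simp
  | coe b =>
    intro h1
    simp only [ENat.map_natCast, WithTop.coe_inj] at h1
    norm_cast at h1 ⊢
    exact h1.symm

/-- The order of `f (r τ)`. -/
theorem hasPtOrd_comp_scale (r : ℕ) [NeZero r] {A : ℍ → ℂ} {τ : ℍ} {a : ℕ}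
    (h : HasPtOrd A (MF.scale r τ) a) : HasPtOrd (A ∘ MF.scale r) τ a := by
  show analyticOrderAt _ _ = (a : ℕ∞)
  have he : (A ∘ MF.scale r) ∘ ofComplex =ᶠ[𝓝 (τ : ℂ)]
      (A ∘ ofComplex) ∘ fun z : ℂ => (r : ℂ) * z := by
    filter_upwards [isOpen_upperHalfPlaneSet.mem_nhds τ.im_pos] with z hz
    have hz' : 0 < ((r : ℂ) * z).im := by
      simpa using mul_pos (Nat.cast_pos.mpr (NeZero.pos r)) hz
    simp only [Function.comp_apply, ofComplex_apply_of_im_pos hz, ofComplex_apply_of_im_pos hz']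
    exact congrArg A (UpperHalfPlane.ext (by simp))
  rw [analyticOrderAt_congr he, analyticOrderAt_comp_of_deriv_ne_zero (by fun_prop)
    (by simp [NeZero.ne r]), ← MF.coe_scale]
  exact h

variable {M r : ℕ} [NeZero M] [NeZero r]

/-- **The key fact over `ℂ`.** -/
theorem ord_eq_ord_qExpand_C (hr : r.Prime) {w : Place ℂ (FC (M * r))}
    (h0 : 0 < w.ord (X0.jC (M * r))) (h3 : ¬ (3 : ℤ) ∣ w.ord (X0.jC (M * r))) {x : FC M}
    {y z : FC (M * r)} (hy : (y : LaurentSeries ℂ) = x)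
    (hz : (z : LaurentSeries ℂ) = qExpand ℂ r (x : LaurentSeries ℂ)) : w.ord y = w.ord z := by
  obtain ⟨τ, c, hc, hpt, g, hfix, hζ⟩ := Mono.covered_of_ord_nonneg w h0.le
  have hj : Mono.IsRep (M * r) (X0.jC (M * r)) 12 (MF.E4fn ^ 3 - (0 : ℂ) • MF.deltaFn)
      MF.deltaFn := by
    have := Mono.isRep_jC_sub (N := M * r) (0 : ℂ)
    rwa [map_zero, sub_zero] at this
  obtain ⟨b, hb⟩ := Mono.exists_hasPtOrd hj.num.mdiff (hj.num_ne X0.jC_ne_zero) τ
  have hcb := hpt _ _ _ _ b 0 hj X0.jC_ne_zero hb (Mono.hasPtOrd_deltaFn τ)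
  rw [Nat.cast_zero, sub_zero] at hcb
  have hjτ : X0.jFun τ = 0 := by
    by_contra hne
    have h4 : (MF.E4fn ^ 3 - (0 : ℂ) • MF.deltaFn) τ ≠ 0 := by
      simpa [MF.E4fn] using mt X0.jFun_eq_zero_iff.mpr hne
    have : b = 0 := hb.unique ((analyticOrderAt_eq_zero).mpr
      (Or.inr (by simpa using h4)))
    rw [this, Nat.cast_zero] at hcb
    have := mul_pos (show (0 : ℤ) < c by exact_mod_cast hc) h0
    omega
  have hb3 : b = 3 := by
    have h := Mono.hasPtOrd_num_jC_sub τ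
    rw [hjτ, X0.ellOrder_eq, hjτ, if_pos rfl] at h
    exact hb.unique h
  subst hb3
  have hc3 : c = 3 := by
    rcases (Nat.dvd_prime Nat.prime_three).mp (Int.natCast_dvd_natCast.mp
      ⟨w.ord (X0.jC (M * r)), hcb.symm⟩) with h | h
    · rw [h, Nat.cast_one, one_mul] at hcb
      exact absurd ⟨1, by rw [hcb]; norm_num⟩ h3
    · exact h
  subst hc3
  obtain ⟨δ, hδ, hδτ⟩ := exists_smul_scale_eq hr g.2 hfix (sq_trace_eq_one hfix hζ)
  rcases eq_or_ne x 0 with rfl | hx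
  · rw [show y = 0 from Subtype.ext (by rw [hy]; rfl),
      show z = 0 from Subtype.ext (by rw [hz]; exact map_zero _)]
  obtain ⟨k, A, B, hr'⟩ := Mono.exists_isRep x
  obtain ⟨a, ha⟩ := Mono.exists_hasPtOrd hr'.num.mdiff (hr'.num_ne hx) τ
  obtain ⟨b, hb'⟩ := Mono.exists_hasPtOrd hr'.den.mdiff hr'.den_ne τ
  have hsmul : ∀ {f : ℍ → ℂ}, MF.IsFormFn (Gamma0 M) k f → ∀ {e : ℕ}, HasPtOrd f τ e →
      HasPtOrd (f ∘ MF.scale r) τ e := fun hf e he => by
    refine hasPtOrd_comp_scale r ?_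
    have := hasPtOrd_smul hf (inv_mem hδ) he
    rwa [show δ⁻¹ • τ = MF.scale r τ by rw [inv_smul_eq_iff, hδτ]] at this
  have hle : Gamma0 (M * r) ≤ Gamma0 M := MF.Gamma0_le_of_dvd (dvd_mul_right M r)
  have hry : Mono.IsRep (M * r) y k A B :=
    ⟨hr'.num.mono hle, hr'.den.mono hle, hr'.den_ne, by rw [hy]; exact hr'.eq⟩
  have hrz : Mono.IsRep (M * r) z k (A ∘ MF.scale r) (B ∘ MF.scale r) := by
    refine ⟨hr'.num.comp_scale r, hr'.den.comp_scale r, fun h => ?_, ?_⟩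
    · have hq := MF.lq_comp_scale hr'.den.isQFn0 r
      rw [h, MF.lq_zero] at hq
      exact hr'.den_ne ((MF.lq_eq_zero_iff hr'.den.isQFn0).mp
        ((qExpand ℂ r).injective (by rw [← hq, map_zero])))
    · rw [MF.lq_comp_scale hr'.den.isQFn0, MF.lq_comp_scale hr'.num.isQFn0, hz, ← map_mul, hr'.eq]
  have hy0 : y ≠ 0 := fun h => hx (Subtype.ext (by rw [← hy, h]; rfl))
  have hz0 : z ≠ 0 := fun h => hx (Subtype.ext (by
    refine (qExpand ℂ r).injective ?_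
    rw [← hz, h]; exact (map_zero _).symm))
  have e1 := hpt y k A B a b hry hy0 ha hb'
  have e2 := hpt z k _ _ a b hrz hz0 (hsmul hr'.num ha) (hsmul hr'.den hb')
  exact mul_left_cancel₀ (by norm_num : ((3 : ℕ) : ℤ) ≠ 0) (e1.trans e2.symm)

/-- **The key fact over `ℚ̄`.** -/
theorem ord_heckeAlphaBar_eq_ord_heckeBetaBar (hr : r.Prime)
    {w : Place Qbar (modularFunctionFieldBar (M * r))} {jE : modularFunctionFieldBar (M * r)}
    (hj : (jE : LaurentSeries Qbar) = jqModC Qbar) (h0 : 0 < w.ord jE)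
    (h3 : ¬ (3 : ℤ) ∣ w.ord jE) (x : modularFunctionFieldBar M) :
    w.ord (heckeAlphaBar Qbar M r x) = w.ord (heckeBetaBar Qbar M r x) := by
  have hjC : Mono.toFC (M * r) jE = X0.jC (M * r) := Subtype.ext (by
    rw [Mono.coe_toFC, hj, ModularCurve.coeffMap_jqModC]; rfl)
  have e := ord_eq_ord_qExpand_C hr (w := Mono.placeC (M * r) w)
    (x := Mono.toFC M x) (y := Mono.toFC (M * r) (heckeAlphaBar Qbar M r x))
    (z := Mono.toFC (M * r) (heckeBetaBar Qbar M r x))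
    (by rwa [← hjC, Mono.ord_placeC]) (by rwa [← hjC, Mono.ord_placeC])
    (by rw [Mono.coe_toFC, Mono.coe_toFC, ModularCurve.coe_heckeAlphaBar])
    (by rw [Mono.coe_toFC, Mono.coe_toFC, ModularCurve.coe_heckeBetaBar,
        ModularCurve.coeffMap_qExpand])
  rwa [Mono.ord_placeC, Mono.ord_placeC] at e

end Fermat.Agent.LoweringAtP.Three
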