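import Fermat.Agent.LoweringAtP.OddPrimes.GoodLowering

/-!
# Flat points at an odd prime, for lowering at `p`

`lowering_of_flat`: residual modularity at level `M p`, a model which at `p` is good or
multiplicative and peu ramifié, and any argument lowering the level from flat points at all places
over `p`, give level `M`. At a good prime either a pushforward to level `M` is nonzero on the image
of the torsion, or the toric part gives the cyclotomic line and hence a flat point.
-/

noncomputable section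

open ModularCurve WeierstrassCurve WeierstrassCurve.Affine.Point
open scoped WeierstrassCurve.Affine

namespace Fermat.Agent.LoweringAtP.Three

open OddPrimes

local notation "Qbar" => AlgebraicClosure ℚ

variable {p : ℕ} [hp : Fact p.Prime] {W : WeierstrassCurve ℤ}

/-- At a good prime: lower along a pushforward, or there is a flat point at every place. -/
theorem modular_or_hasFlatPoint_good (hp2 : p ≠ 2) (hΔ0 : W.Δ ≠ 0) (hgood : ¬ (p : ℤ) ∣ W.Δ)
    (hirr : W.ModRepIsIrreducible p) {M : ℕ} [NeZero M] (hpM : ¬ p ∣ M)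
    (hmod : W.IsResiduallyModularOfLevel p (M * p)) :
    W.IsResiduallyModularOfLevel p M ∨
      ∀ A : ValuationSubring Qbar, A.LiesOverPrime p → HasFlatPoint W p A := by
  classical
  have : NeZero p := ⟨hp.out.ne_zero⟩
  have : NeZero (M * p) := ⟨mul_ne_zero (NeZero.ne M) hp.out.ne_zero⟩
  obtain ⟨Ins⟩ := Attach.nonempty_jacobianInputs (M * p) p
  obtain ⟨ι, hι, hequiv, htor, heig⟩ :=
    HeckeCompat.exists_galois_map_of_residuallyModular hp2 hΔ0 Ins hirr hmod
  by_cases hα : ∀ x, SquareLevel.pushAlpha M p (ι x) = 0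
  swap
  · obtain ⟨x, hx⟩ := not_forall.1 hα
    exact Or.inl (residuallyModular_of_push hΔ0 _ (SquareLevel.pushAlpha_smul M p) (htor x) hx
      fun ℓ hℓ => heig ℓ hℓ x)
  by_cases hβ : ∀ x, SquareLevel.pushBeta M p (ι x) = 0
  swap
  · obtain ⟨x, hx⟩ := not_forall.1 hβ
    exact Or.inl (residuallyModular_of_push hΔ0 _ (SquareLevel.pushBeta_smul M p) (htor x) hx
      fun ℓ hℓ => heig ℓ hℓ x)
  refine Or.inr fun A hA => ?_
  obtain ⟨C, -, -, hC2, hCact⟩ := TwoComponent.Ordinary.hasToricPart M p hpM hA 1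
  obtain ⟨ζ, hζ⟩ : ∃ ζ : Qbar, IsPrimitiveRoot ζ p :=
    HasEnoughRootsOfUnity.exists_primitiveRoot Qbar p
  obtain ⟨xQ, hxQ0, hline⟩ := exists_cyclotomic_line hp2 hA hΔ0 (C.comap ι)
    (fun σ hσ τ hτ x => by
      show ι (σ • (τ • x - x) - (τ • x - x)) ∈ C
      rw [map_sub, hequiv, map_sub, hequiv]
      exact hC2 σ hσ τ hτ (ι x) (by rw [pow_one]; exact htor x))
    (fun x hx σ hσ a ha => hι (by
      rw [hequiv, map_nsmul]
      exact hCact (ι x) hx (htor x) (hα x) (hβ x) σ hσ a ha)) hζ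
  exact hasFlatPoint_of_line hp2 hA hΔ0 hgood hxQ0 hζ hline

/-- **Lowering at `p`** from an argument which lowers the level given flat points at `p`. -/
theorem lowering_of_flat (hp2 : p ≠ 2) (hΔ0 : W.Δ ≠ 0)
    (hsemi : (p : ℤ) ∣ W.Δ → ¬ (p : ℤ) ∣ W.c₄)
    (hfin : (W.map (Int.castRingHom ℚ)).IsPeuRamifieeAt p p)
    (hirr : W.ModRepIsIrreducible p)
    (hlow : ∀ {N : ℕ} [NeZero N], ¬ p ∣ N →
      (∀ A : ValuationSubring Qbar, A.LiesOverPrime p → HasFlatPoint W p A) →
      W.IsResiduallyModularOfLevel p (N * p) → W.IsResiduallyModularOfLevel p N)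
    {M : ℕ} (hM : 0 < M) (hpM : p ∣ M) (hp2M : ¬ p ^ 2 ∣ M)
    (hmod : W.IsResiduallyModularOfLevel p M) : W.IsResiduallyModularOfLevel p (M / p) := by
  obtain ⟨N, rfl⟩ := hpM
  rw [Nat.mul_div_cancel_left N hp.out.pos]
  rw [mul_comm] at hmod
  have : NeZero N := ⟨fun h => by simp [h] at hM⟩
  have hpN : ¬ p ∣ N := fun h => hp2M (by rw [sq]; exact Nat.mul_dvd_mul_left p h)
  by_cases hΔ : (p : ℤ) ∣ W.Δ
  · refine hlow hpN (fun A hA => hasFlatPoint_mult hp2 hΔ0 hΔ (hsemi hΔ) ?_ hA) hmod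
    have h := hfin
    rw [IsPeuRamifieeAt, map_Δ, eq_intCast, padicValRat.of_int] at h
    exact Int.natCast_dvd_natCast.mp h
  · exact (modular_or_hasFlatPoint_good hp2 hΔ0 hΔ hirr hpN hmod).elim id fun h => hlow hpN h hmod

omit hp in
/-- A good prime is peu ramifié. -/
theorem isPeuRamifieeAt_of_good (hgood : ¬ (p : ℤ) ∣ W.Δ) :
    (W.map (Int.castRingHom ℚ)).IsPeuRamifieeAt p p := by
  rw [IsPeuRamifieeAt, map_Δ, eq_intCast, padicValRat.of_int,
    padicValInt.eq_zero_of_not_dvd hgood]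
  simp

end Fermat.Agent.LoweringAtP.Three
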