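import Fermat.Agent.LoweringAtP.Three.Special
import Fermat.Agent.Red.Existence
import Fermat.Agent.X0.DiffForms

/-!
# `j̄` is unramified away from `0` and `1728`

On `X₀(M)` in characteristic prime to `M`, for a place `Q` with `j̄(Q) = a ∉ {0, 1728}`: for a
function `u` regular on the fibre, `du/dj` is regular on the fibre in characteristic zero and
reduces to `θū / θj̄`, `θ = q d/dq`.  As large multiples of the pole divisor lift, an order `≥ 2` of
`j̄ - a` at `Q` would make every such function vanish at `Q`.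
-/

noncomputable section

namespace Fermat.Agent.LoweringAtP.Three

open AlgebraicCurve ModularCurve Fermat.Agent.LoweringAtP.HeckeCompat Fermat.Agent.Red

local notation "Qbar" => AlgebraicClosure ℚ

section QTheta

variable {R S : Type*} [CommRing R] [CommRing S]

/-- `q d/dq`. -/
def qTheta (f : LaurentSeries R) : LaurentSeries R :=
  ⟨fun n => (n : R) * f.coeff n, f.isPWO_support.mono fun n hn =>
    Function.mem_support.mpr fun h0 => hn (by simp [h0])⟩

@[simp] theorem qTheta_coeff (f : LaurentSeries R) (n : ℤ) :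
    (qTheta f).coeff n = (n : R) * f.coeff n := rfl

theorem qTheta_add (f g : LaurentSeries R) : qTheta (f + g) = qTheta f + qTheta g :=
  HahnSeries.ext (funext fun n => by simp [mul_add])

theorem qTheta_mul (f g : LaurentSeries R) :
    qTheta (f * g) = f * qTheta g + g * qTheta f := by
  refine HahnSeries.ext (funext fun n => ?_)
  have hsub : ∀ h : LaurentSeries R, (qTheta h).support ⊆ h.support := fun h m hm =>
    Function.mem_support.mpr fun h0 => hm (by simp [h0])
  rw [qTheta_coeff, mul_comm g (qTheta f), HahnSeries.coeff_add, HahnSeries.coeff_mul,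
    HahnSeries.coeff_mul_right' g.isPWO_support (hsub g),
    HahnSeries.coeff_mul_left' f.isPWO_support (hsub f), Finset.mul_sum,
    ← Finset.sum_add_distrib]
  refine Finset.sum_congr rfl fun x hx => ?_
  obtain ⟨-, -, he⟩ := Finset.mem_antidiagonal.mp hx
  rw [qTheta_coeff, qTheta_coeff, ← he, Int.cast_add]
  ring

theorem coeffMap_qTheta (φ : R →+* S) (f : LaurentSeries R) :
    coeffMap φ (qTheta f) = qTheta (coeffMap φ f) :=
  HahnSeries.ext (funext fun n => by simp [coeffMap_coeff])

theorem qTheta_single (c : R) : qTheta (HahnSeries.single (0 : ℤ) c) = 0 := by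
  refine HahnSeries.ext (funext fun n => ?_)
  rw [qTheta_coeff, HahnSeries.coeff_single]
  split_ifs with h
  · simp [h]
  · simp

theorem qTheta_jqModC_coeff_neg_one (R : Type*) [CommRing R] :
    (qTheta (jqModC R)).coeff (-1) = -1 := by
  have h : ((jqModC ℤ) ^ 1).coeff (-(1 : ℕ) : ℤ) = 1 := coeff_jqModC_pow_self ℤ 1
  rw [qTheta_coeff, ← coeffMap_jqModC (Int.castRingHom R), coeffMap_coeff]
  rw [pow_one] at h
  norm_num at h ⊢
  rw [h]
  simp

theorem qTheta_jqModC_coeff_of_lt (R : Type*) [CommRing R] {n : ℤ} (hn : n < -1) :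
    (qTheta (jqModC R)).coeff n = 0 := by
  have h : ((jqModC ℤ) ^ 1).coeff n = 0 := coeff_jqModC_pow_of_lt ℤ (by omega)
  rw [qTheta_coeff, ← coeffMap_jqModC (Int.castRingHom R), coeffMap_coeff, ← pow_one (jqModC ℤ),
    h, map_zero, mul_zero]

theorem qTheta_jqModC_ne_zero (R : Type*) [CommRing R] [Nontrivial R] :
    qTheta (jqModC R) ≠ 0 := fun h => by
  have h1 := qTheta_jqModC_coeff_neg_one R
  rw [h, HahnSeries.coeff_zero] at h1
  simp at h1

theorem isUnit_qTheta_jqModC (R : Type*) [CommRing R] [IsDomain R] :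
    IsUnit (qTheta (jqModC R)) := by
  have h0 := qTheta_jqModC_ne_zero R
  have h1 := qTheta_jqModC_coeff_neg_one R
  have ho : (qTheta (jqModC R)).order = -1 := by
    refine le_antisymm (HahnSeries.order_le_of_coeff_ne_zero (by rw [h1]; simp)) ?_
    by_contra hlt
    exact h0 (HahnSeries.coeff_order_eq_zero.mp (qTheta_jqModC_coeff_of_lt R (not_le.mp hlt)))
  rw [HahnSeries.isUnit_iff, HahnSeries.leadingCoeff_eq, ho, h1]
  exact isUnit_one.neg

theorem qTheta_sub (f g : LaurentSeries R) : qTheta (f - g) = qTheta f - qTheta g :=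
  HahnSeries.ext (funext fun n => by simp [mul_sub])

end QTheta

variable {M : ℕ} [NeZero M]

/-- Over a value of `j` other than `0` and `1728` the order of `j - c` is one. -/
theorem ord_sub_eq_one {P : Place Qbar (modularFunctionFieldBar M)}
    {jM : modularFunctionFieldBar M} (hj : (jM : LaurentSeries Qbar) = jqModC Qbar) {c : Qbar}
    (hc : 0 < P.ord (jM - algebraMap Qbar _ c)) (h0 : c ≠ 0) (h1728 : c ≠ 1728) :
    P.ord (jM - algebraMap Qbar _ c) = 1 := by
  set ι : Qbar →+* ℂ := (complexEmbedding : Qbar →+* ℂ)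
  set w := Mono.placeC M P
  have hjC : Mono.toFC M jM = X0.jC M := Subtype.ext (by
    rw [Mono.coe_toFC, hj, ModularCurve.coeffMap_jqModC]; rfl)
  have hcC : Mono.toFC M (algebraMap Qbar _ c) = algebraMap ℂ (Mono.FC M) (ι c) := Subtype.ext (by
    rw [Mono.coe_toFC]
    show coeffMap ι (algebraMap Qbar (LaurentSeries Qbar) c) =
      algebraMap ℂ (LaurentSeries ℂ) (ι c)
    rw [algebraMap_laurentSeries_eq_single, algebraMap_laurentSeries_eq_single, coeffMap_single])
  have hw : w.ord (X0.jC M - algebraMap ℂ (Mono.FC M) (ι c)) =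
      P.ord (jM - algebraMap Qbar _ c) := by
    rw [← hjC, ← hcC, ← map_sub]; exact Mono.ord_placeC M P _
  have hwj : 0 ≤ w.ord (X0.jC M) := by
    have h1 : X0.jC M - algebraMap ℂ (Mono.FC M) (ι c) ∈ w.toValuationSubring :=
      (FF.mem_iff_ord_nonneg w).mpr (by rw [hw]; exact hc.le)
    have := (FF.mem_iff_ord_nonneg w).mp (add_mem h1 (w.algebraMap_mem' (ι c)))
    rwa [sub_add_cancel] at this
  obtain ⟨τ, e, he, hpt, -⟩ := Mono.covered_of_ord_nonneg w hwj
  have hj' := Mono.isRep_jC_sub (N := M) (ι c)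
  obtain ⟨b, hb⟩ := Mono.exists_hasPtOrd hj'.num.mdiff (hj'.num_ne (X0.jC_sub_ne_zero _)) τ
  have hcb := hpt _ _ _ _ b 0 hj' (X0.jC_sub_ne_zero _) hb (Mono.hasPtOrd_deltaFn τ)
  rw [Nat.cast_zero, sub_zero, hw] at hcb
  have hτ : X0.jFun τ = ι c := by
    by_contra hne
    have h4 : (MF.E4fn ^ 3 - ι c • MF.deltaFn) τ ≠ 0 := by
      rw [show MF.E4fn ^ 3 - ι c • MF.deltaFn = X0.shiftForm (ι c) from rfl, X0.shiftForm_apply]
      exact mul_ne_zero (sub_ne_zero.mpr hne) (MF.deltaFn_ne_zero τ)
    have : b = 0 := hb.unique ((analyticOrderAt_eq_zero).mpr (Or.inr (by simpa using h4)))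
    rw [this, Nat.cast_zero] at hcb
    have := mul_pos (show (0 : ℤ) < e by exact_mod_cast he) hc
    omega
  have hb1 : b = 1 := by
    have h := Mono.hasPtOrd_num_jC_sub τ
    rw [hτ, X0.ellOrder_eq, hτ, if_neg ((map_ne_zero ι).mpr h0),
      if_neg (fun h => h1728 (ι.injective (h.trans (map_ofNat ι 1728).symm)))] at h
    exact hb.unique h
  rw [hb1, Nat.cast_one] at hcb
  exact Int.eq_one_of_mul_eq_one_left hc.le hcb

/-- `du/dj`: its expansion, and its regularity over values of `j` other than `0` and `1728`. -/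
theorem exists_derivJ {jM : modularFunctionFieldBar M}
    (hj : (jM : LaurentSeries Qbar) = jqModC Qbar) (u : modularFunctionFieldBar M) :
    ∃ g : modularFunctionFieldBar M,
      qTheta (u : LaurentSeries Qbar) = (g : LaurentSeries Qbar) * qTheta (jqModC Qbar) ∧
      ∀ P : Place Qbar (modularFunctionFieldBar M), 0 ≤ P.ord jM → P.ord jM ≤ 0 →
        P.ord (jM - algebraMap Qbar _ 1728) ≤ 0 → 0 ≤ P.ord u → 0 ≤ P.ord g := by
  have htr : Transcendental Qbar jM := fun h => (MF.transcendental_jqModC (K := Qbar)) (by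
    rw [← hj]; exact h.algHom (modularFunctionFieldBar M).val)
  have := FF.finiteDimensional_adjoin_of_transcendental htr
  have hspan := FF.span_D_eq_top htr
  have hDj : KaehlerDifferential.D Qbar (modularFunctionFieldBar M) jM ≠ 0 :=
    FF.Diff.D_ne_zero_of_span hspan
  obtain ⟨g, hg⟩ := Submodule.mem_span_singleton.mp
    (hspan ▸ Submodule.mem_top : KaehlerDifferential.D Qbar (modularFunctionFieldBar M) u ∈ _)
  refine ⟨g, ?_, fun P hP hP0 hP1728 hu => ?_⟩
  · let : Module Qbar (LaurentSeries Qbar) := Algebra.toModule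
    let : SMul Qbar (LaurentSeries Qbar) := Algebra.toSMul
    have : IsScalarTower Qbar (modularFunctionFieldBar M) (LaurentSeries Qbar) :=
      ⟨fun c x y => by
        show ((c • x : modularFunctionFieldBar M) : LaurentSeries Qbar) * y =
          c • ((x : LaurentSeries Qbar) * y)
        rw [Algebra.smul_def, Algebra.smul_def, IntermediateField.coe_mul, mul_assoc]
        rfl⟩
    let d : Derivation Qbar (modularFunctionFieldBar M) (LaurentSeries Qbar) :=
      Derivation.mk'
        { toFun := fun x => qTheta (x : LaurentSeries Qbar)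
          map_add' := fun x y => qTheta_add _ _
          map_smul' := fun c x => by
            rw [RingHom.id_apply, Algebra.smul_def, Algebra.smul_def, IntermediateField.coe_mul,
              qTheta_mul]
            show algebraMap Qbar (LaurentSeries Qbar) c * _ +
              _ * qTheta (algebraMap Qbar (LaurentSeries Qbar) c) = _
            rw [algebraMap_laurentSeries_eq_single, qTheta_single, mul_zero, add_zero] }
        fun x y => qTheta_mul _ _
    have h := congrArg d.liftKaehlerDifferential hg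
    rw [map_smul, Derivation.liftKaehlerDifferential_comp_D,
      Derivation.liftKaehlerDifferential_comp_D] at h
    rw [← hj]
    exact h.symm
  rcases eq_or_ne g 0 with rfl | hg0
  · simp
  obtain ⟨c, hc⟩ := FF.exists_const (v := P) hP
  have hc : 0 < P.ord (jM - algebraMap Qbar _ c) := hc.resolve_left fun h =>
    htr (sub_eq_zero.mp h ▸ isAlgebraic_algebraMap c)
  have h0 : c ≠ 0 := by
    rintro rfl
    rw [map_zero, sub_zero] at hc
    omega
  have h1728 : c ≠ 1728 := by
    rintro rfl
    omega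
  have h1 := ord_sub_eq_one hj hc h0 h1728
  have hreg := FF.Diff.regularPlace_charZero P
  have hdj : P.ordDifferential (KaehlerDifferential.D Qbar _ jM) = 0 := by
    rw [hreg.ordDifferential_D_sub_algebraMap (c := c) (by rw [h1]; simp), h1, sub_self]
  have hdu : 0 ≤ P.ordDifferential (KaehlerDifferential.D Qbar _ u) :=
    hreg.ordDifferential_D_nonneg ((FF.Diff.val_le_one_iff_mem P).mpr
      ((FF.mem_iff_ord_nonneg P).mpr hu))
  rw [← hg, hreg.ordDifferential_smul_of_ne_zero hg0 hDj, hdj, add_zero] at hdu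
  exact hdu

/-- There is a function with a given order in a large space `L(E)`. -/
theorem exists_mem_ord {K F : Type*} [Field K] [Field F] [Algebra K F] [IsAlgClosed K]
    [FF.IsFunctionField K F] (E : Divisor K F) (Q : Place K F)
    (hE : 2 * (genusFF K F : ℤ) + 1 ≤ Divisor.degree E) :
    ∃ w ∈ riemannRochSpace E, w ≠ 0 ∧ Q.ord w = -E Q := by
  classical
  have hRR : RR K F (genusFF K F) := RR.ofFF
  set E' := E - Finsupp.single Q (1 : ℤ)
  have hd : Divisor.degree E' = Divisor.degree E - 1 := by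
    simp [E', map_sub, Divisor.degree_single, FF.place_deg_eq_one]
  obtain ⟨w, hw, hw'⟩ : ∃ w, w ∈ riemannRochSpace E ∧ w ∉ riemannRochSpace E' := by
    by_contra hcon
    push Not at hcon
    have := hRR.finiteDim E'
    have h1 := Submodule.finrank_mono (show riemannRochSpace E ≤ riemannRochSpace E' from hcon)
    have h2 := hRR.ell_eq_of_large (D := E) (by omega)
    have h3 := hRR.ell_eq_of_large (D := E') (by omega)
    rw [ell] at h2 h3
    omega
  rw [mem_riemannRochSpace_iff] at hw hw'
  push Not at hw'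
  obtain ⟨v, hv0, hv⟩ := hw'
  have hvE := (hw v).resolve_left hv0
  have hvQ : v = Q := by
    by_contra hne
    simp only [E', Finsupp.sub_apply, Finsupp.single_apply, if_neg (Ne.symm hne)] at hv
    omega
  subst hvQ
  simp only [E', Finsupp.sub_apply, Finsupp.single_apply] at hv
  exact ⟨w, mem_riemannRochSpace_iff.mpr hw, hv0, by omega⟩

variable {A : ValuationSubring Qbar} {k : Type*} [Field k] [IsAlgClosed k] {π : A →+* k}

theorem sameDegree_of_ne_zero (hMk : (M : k) ≠ 0) : SameDegree Qbar k M := by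
  have e1 := Igusa.relfinrank_full (K := k) M hMk
  have e2 := Igusa.relfinrank_full (K := Qbar) M (Nat.cast_ne_zero.mpr (NeZero.ne M))
  rw [Igusa.jv_one_one] at e1 e2
  exact ⟨e1 ▸ Igusa.psi_pos M, e2.trans e1.symm⟩

omit [IsAlgClosed k] in
/-- A function regular off the poles of `j` reduces to a function whose `θ`-derivative is `θ j̄`
times a function regular at `Q`, if `j` and `j - 1728` have order `≤ 0` on the fibre over `Q`. -/
theorem exists_qTheta_eq_mul (hπ : Function.Surjective π) (hdeg : SameDegree Qbar k M)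
    {r : Place Qbar (modularFunctionFieldBar M) → Place k (modularFunctionFieldFullC k M)}
    (hr : IsPlaceReductionAlong A π M r) {Q : Place k (modularFunctionFieldFullC k M)}
    (hj : (((Red.gaussData (A := A) hπ hdeg).x : modularFunctionFieldBar M) : LaurentSeries Qbar) =
      jqModC Qbar)
    (hfib : ∀ P, r P = Q →
      0 ≤ P.ord ((Red.gaussData (A := A) hπ hdeg).x : modularFunctionFieldBar M) ∧
        P.ord ((Red.gaussData (A := A) hπ hdeg).x : modularFunctionFieldBar M) ≤ 0 ∧
        P.ord (((Red.gaussData (A := A) hπ hdeg).x : modularFunctionFieldBar M) -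
          algebraMap Qbar _ 1728) ≤ 0)
    {m : ℕ} (u : (Red.gaussData (A := A) hπ hdeg).O)
    (hu : (u : modularFunctionFieldBar M) ∈ riemannRochSpace
      (m • FF.poleDiv (K := Qbar) ((Red.gaussData (A := A) hπ hdeg).x :
        modularFunctionFieldBar M))) :
    ∃ g : modularFunctionFieldFullC k M, 0 ≤ Q.ord g ∧
      qTheta (((Red.gaussData (A := A) hπ hdeg).red u : modularFunctionFieldFullC k M) :
        LaurentSeries k) = (g : LaurentSeries k) * qTheta (jqModC k) := by
  classical
  let G := Red.gaussData (A := A) (π := π) (N := M) hπ hdeg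
  set jM : modularFunctionFieldBar M := (G.x : modularFunctionFieldBar M) with hjM
  obtain ⟨y, z, hz, hyz⟩ := G.mem_O.mp u.2
  rw [G.red_eq hz hyz]
  obtain ⟨ys, hys, hysk⟩ := y.2
  obtain ⟨zs, hzs, hzsk⟩ := z.2
  have hρy : (G.ρ y : LaurentSeries k) = coeffMap π ys := Red.coe_integralReduction A π M hys
  have hρz : (G.ρ z : LaurentSeries k) = coeffMap π zs := Red.coe_integralReduction A π M hzs
  obtain ⟨v, hv⟩ := isUnit_qTheta_jqModC A
  set Ns : LaurentSeries A := (qTheta ys * zs - ys * qTheta zs) * ↑v⁻¹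
  have hNs : Ns * qTheta (jqModC A) = qTheta ys * zs - ys * qTheta zs := by
    rw [← hv, mul_assoc, Units.inv_mul, mul_one]
  obtain ⟨g, hg, hgreg⟩ := exists_derivJ hj (u : modularFunctionFieldBar M)
  have hθ : qTheta (jqModC Qbar) ≠ 0 := qTheta_jqModC_ne_zero Qbar
  have huz : ((u : modularFunctionFieldBar M) : LaurentSeries Qbar) * coeffMap A.subtype zs =
      coeffMap A.subtype ys := by
    rw [hys, hzs]
    exact congrArg Subtype.val hyz
  have hN : coeffMap A.subtype Ns =
      ((g * (z : modularFunctionFieldBar M) ^ 2 : modularFunctionFieldBar M) :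
        LaurentSeries Qbar) := by
    refine mul_right_cancel₀ hθ ?_
    have e := congrArg (coeffMap A.subtype) hNs
    simp only [map_mul, map_sub, coeffMap_qTheta, coeffMap_jqModC] at e
    rw [e, ← huz, qTheta_mul, MulMemClass.coe_mul, SubmonoidClass.coe_pow, ← hzs, hg]
    ring
  have hmem : coeffMap A.subtype Ns ∈ modularFunctionFieldBar M := hN ▸ SetLike.coe_mem _
  have hmemk := coeffMap_mem_fullC hπ hdeg Ns hmem
  set n₀ : modularFunctionFieldFullC k M := ⟨coeffMap π Ns, hmemk⟩
  have hzk : G.ρ z ≠ 0 := hz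
  refine ⟨n₀ / G.ρ z ^ 2, ?_, ?_⟩
  · rcases eq_or_ne n₀ 0 with h0 | h0
    · rw [h0, zero_div]; simp
    have hne' : coeffMap π Ns ≠ 0 := fun h' => h0 (Subtype.ext h')
    set Nel : modularFunctionFieldBar M := g * (z : modularFunctionFieldBar M) ^ 2
    have hz0 : (z : modularFunctionFieldBar M) ≠ 0 := fun h' =>
      hz (by rw [show z = 0 from Subtype.ext h', map_zero])
    have hg0 : g ≠ 0 := fun h' => hne' (by
      rw [show Ns = 0 from EichlerShimura.coeffMap_injective (f := A.subtype) A.subtype_injective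
        (by rw [hN, map_zero]; simp [Nel, h']), map_zero])
    have h1 : Finsupp.mapDomain r (FF.divOf (K := Qbar) Nel) Q = Q.ord n₀ :=
      hr.2 Ns hmem hmemk hne' _ (fun P => congrArg P.ord (Subtype.ext hN.symm)) Q
    have h2 : Finsupp.mapDomain r (FF.divOf (K := Qbar) (z : modularFunctionFieldBar M)) Q =
        Q.ord (G.ρ z) := by
      refine (hr.2 zs (hzs.symm ▸ z.1.2) hzsk (fun h' => hz (Subtype.ext (hρz.trans h'))) _
        (fun P => congrArg P.ord (Subtype.ext hzs.symm)) Q).trans ?_
      exact congrArg Q.ord (Subtype.ext hρz.symm)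
    have h3 : FF.divOf (K := Qbar) Nel = FF.divOf g +
        ((2 : ℤ) • FF.divOf (z : modularFunctionFieldBar M)) := Finsupp.ext fun P => by
      rw [Finsupp.add_apply, Finsupp.smul_apply, FF.divOf_apply, FF.divOf_apply,
        FF.divOf_apply, P.ord_mul hg0 (pow_ne_zero _ hz0), FF.ord_pow, smul_eq_mul]
      rfl
    rw [h3, Finsupp.mapDomain_add, Finsupp.mapDomain_smul, Finsupp.add_apply,
      Finsupp.smul_apply, h2, smul_eq_mul] at h1
    have hgP : 0 ≤ Finsupp.mapDomain r (FF.divOf (K := Qbar) g) Q := by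
      rw [Finsupp.mapDomain, Finsupp.sum_apply]
      refine Finset.sum_nonneg fun P _ => ?_
      simp only [Finsupp.single_apply]
      split_ifs with hP
      · refine hgreg P (hfib P hP).1 (hfib P hP).2.1 (hfib P hP).2.2 ?_
        rcases mem_riemannRochSpace_iff.mp hu P with h' | h'
        · rw [h']; simp
        · have hD0 : FF.poleDiv (K := Qbar) (G.x : modularFunctionFieldBar M) P = 0 := by
            have := (hfib P hP).1
            rw [hjM] at this
            rw [FF.poleDiv_apply]; omega
          rwa [Finsupp.smul_apply, hD0, smul_zero, neg_zero] at h'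
      · exact le_rfl
    rw [FF.ord_div Q h0 (pow_ne_zero _ hzk), FF.ord_pow]
    push_cast
    omega
  · have hzs0 : coeffMap π zs ≠ 0 := fun h' => hz (Subtype.ext (hρz.trans h'))
    have e := congrArg (coeffMap π) hNs
    simp only [map_mul, map_sub, coeffMap_qTheta, coeffMap_jqModC] at e
    rw [IntermediateField.coe_div, IntermediateField.coe_div, SubmonoidClass.coe_pow, hρy, hρz]
    set X := coeffMap π ys / coeffMap π zs
    have hX : coeffMap π ys = X * coeffMap π zs := (div_mul_cancel₀ _ hzs0).symm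
    rw [hX, qTheta_mul] at e
    refine mul_right_cancel₀ (pow_ne_zero 2 hzs0) ?_
    rw [div_mul_eq_mul_div, div_mul_cancel₀ _ (pow_ne_zero 2 hzs0)]
    show _ = coeffMap π Ns * qTheta (jqModC k)
    rw [e]
    ring

/-- A place at which `θ` of every function in `L(n D)`, `D` the pole divisor of `j̄` and `n` large,
is a regular multiple of `θ j̄` is no multiple zero of `j̄ - a`. -/
theorem ord_sub_eq_one_of_qTheta {a : k} {Q : Place k (modularFunctionFieldFullC k M)}
    (hQ : 0 < Q.ord (jC k M - algebraMap k _ a)) (hQ0 : 0 ≤ Q.ord (jC k M)) {n₁ : ℕ}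
    (hderiv : ∀ m ≥ n₁, ∀ w ∈ riemannRochSpace (m • FF.poleDiv (K := k) (jC k M)),
      ∃ g : modularFunctionFieldFullC k M, 0 ≤ Q.ord g ∧
        qTheta (w : LaurentSeries k) = (g : LaurentSeries k) * qTheta (jqModC k)) :
    Q.ord (jC k M - algebraMap k _ a) = 1 := by
  classical
  by_contra hne
  set D := FF.poleDiv (K := k) (jC k M) with hD
  have hDQ : D Q = 0 := by rw [hD, FF.poleDiv_apply]; omega
  have hDnn : ∀ R, 0 ≤ D R := fun R => by rw [hD, FF.poleDiv_apply]; exact le_max_right _ _
  set gk := (genusFF k (modularFunctionFieldFullC k M) : ℤ)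
  have htrk : Transcendental k (jC k M) := fun h => (MF.transcendental_jqModC (K := k))
    (h.algHom (modularFunctionFieldFullC k M).val)
  have hdD : 1 ≤ Divisor.degree D := by
    rw [hD, FF.degree_poleDiv htrk]
    have := FF.finiteDimensional_adjoin_of_transcendental htrk
    exact_mod_cast Module.finrank_pos
  have hbig : ∀ T : Divisor k (modularFunctionFieldFullC k M), ∃ m ≥ n₁,
      2 * gk + 1 ≤ Divisor.degree (m • D - T) := fun T => by
    refine ⟨max n₁ (2 * gk + 1 + Divisor.degree T).toNat, le_max_left _ _, ?_⟩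
    rw [map_sub, map_nsmul, nsmul_eq_mul]
    have h1 : ((max n₁ (2 * gk + 1 + Divisor.degree T).toNat : ℕ) : ℤ) * 1 ≤
        ((max n₁ (2 * gk + 1 + Divisor.degree T).toNat : ℕ) : ℤ) * Divisor.degree D :=
      mul_le_mul_of_nonneg_left hdD (Int.natCast_nonneg _)
    omega
  obtain ⟨m, hm, hmdeg⟩ := hbig (Finsupp.single Q 1)
  obtain ⟨t, ht, ht0, htQ⟩ := exists_mem_ord _ Q hmdeg
  rw [Finsupp.sub_apply, Finsupp.smul_apply, hDQ, smul_zero, Finsupp.single_eq_same] at htQ
  have htD : t ∈ riemannRochSpace (m • D) := by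
    refine mem_riemannRochSpace_iff.mpr fun R => (mem_riemannRochSpace_iff.mp ht R).imp id ?_
    intro h'
    rw [Finsupp.sub_apply, Finsupp.single_apply] at h'
    split_ifs at h' <;> omega
  set T := (2 : ℕ) • FF.zeroDiv (K := k) t - Finsupp.single Q 2 with hT
  have hTQ : T Q = 0 := by
    rw [hT, Finsupp.sub_apply, Finsupp.smul_apply, Finsupp.single_eq_same, FF.zeroDiv_apply, htQ]
    simp
  have hTnn : ∀ R, R ≠ Q → T R = 2 * max (R.ord t) 0 := fun R hR => by
    rw [hT, Finsupp.sub_apply, Finsupp.smul_apply, Finsupp.single_eq_of_ne hR, FF.zeroDiv_apply,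
      nsmul_eq_mul, sub_zero]
    rfl
  obtain ⟨n, hn, hndeg⟩ := hbig T
  obtain ⟨y, hy, hy0, hyQ⟩ := exists_mem_ord _ Q hndeg
  rw [Finsupp.sub_apply, Finsupp.smul_apply, hDQ, smul_zero, hTQ, sub_zero, neg_zero] at hyQ
  have hyD : y ∈ riemannRochSpace (n • D) := by
    refine mem_riemannRochSpace_iff.mpr fun R => (mem_riemannRochSpace_iff.mp hy R).imp id ?_
    intro h'
    rw [Finsupp.sub_apply] at h'
    rcases eq_or_ne R Q with rfl | hR
    · rw [hTQ] at h'; simpa using h'
    · rw [hTnn R hR] at h'; omega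
  set x := jC k M - algebraMap k _ a with hx
  have hx0 : x ≠ 0 := fun h' => htrk (sub_eq_zero.mp h' ▸ isAlgebraic_algebraMap a)
  set z := x * y / t ^ 2 with hz
  have hxR : ∀ R : Place k (modularFunctionFieldFullC k M), -D R ≤ R.ord x := fun R => by
    have h1 : jC k M ∈ riemannRochSpace D := mem_riemannRochSpace_iff.mpr fun v => Or.inr (by
      rw [hD, FF.poleDiv_apply]; omega)
    have h2 : algebraMap k (modularFunctionFieldFullC k M) a ∈ riemannRochSpace D :=
      mem_riemannRochSpace_iff.mpr fun v => Or.inr (by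
        rw [FF.ord_algebraMap]; linarith [hDnn v])
    exact (mem_riemannRochSpace_iff.mp (sub_mem h1 h2) R).resolve_left hx0
  have hzD : z ∈ riemannRochSpace ((n + 1) • D) := by
    refine mem_riemannRochSpace_iff.mpr fun R => Or.inr ?_
    rw [hz, FF.ord_div R (mul_ne_zero hx0 hy0) (pow_ne_zero _ ht0), R.ord_mul hx0 hy0, FF.ord_pow,
      Finsupp.smul_apply, nsmul_eq_mul]
    push_cast
    rw [add_mul, one_mul]
    have h1 := hxR R
    have h2 := (mem_riemannRochSpace_iff.mp hy R).resolve_left hy0
    rw [Finsupp.sub_apply, Finsupp.smul_apply, nsmul_eq_mul] at h2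
    rcases eq_or_ne R Q with rfl | hR
    · rw [hDQ, mul_zero, htQ, hyQ]; omega
    · rw [hTnn R hR] at h2; omega
  obtain ⟨gt, hgt, hgt'⟩ := hderiv m hm t htD
  obtain ⟨gy, hgy, hgy'⟩ := hderiv n hn y hyD
  obtain ⟨gz, hgz, hgz'⟩ := hderiv (n + 1) (by omega) z hzD
  have hid : x * y = t * t * z := by
    rw [hz, pow_two, mul_comm (t * t), div_mul_cancel₀ _ (mul_ne_zero ht0 ht0)]
  have hy' : y = t * (2 * gt * z + t * gz - x / t * gy) := by
    have hser := congrArg (fun e : modularFunctionFieldFullC k M =>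
      qTheta (e : LaurentSeries k)) hid
    simp only [MulMemClass.coe_mul, qTheta_mul] at hser
    have hxθ : qTheta (x : LaurentSeries k) = qTheta (jqModC k) := by
      rw [hx, AddSubgroupClass.coe_sub]
      show qTheta (jqModC k - algebraMap k (LaurentSeries k) a) = _
      rw [algebraMap_laurentSeries_eq_single]
      rw [qTheta_sub, qTheta_single, sub_zero]
    rw [hxθ, hgy', hgt', hgz'] at hser
    have h2 : (y : LaurentSeries k) = ((t * t * gz + z * (t * gt + t * gt) - x * gy :
        modularFunctionFieldFullC k M) : LaurentSeries k) := by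
      refine mul_right_cancel₀ (qTheta_jqModC_ne_zero k) ?_
      push_cast
      linear_combination hser
    rw [Subtype.ext h2]
    field_simp
    ring
  set E := 2 * gt * z + t * gz - x / t * gy with hE
  have hmem : E ∈ Q.toValuationSubring := by
    have hreg : ∀ {f}, 0 ≤ Q.ord f → f ∈ Q.toValuationSubring := fun h' =>
      (FF.mem_iff_ord_nonneg Q).mpr h'
    refine sub_mem (add_mem (mul_mem (mul_mem (ofNat_mem _ 2) (hreg hgt)) (hreg ?_))
      (mul_mem (hreg (by omega)) (hreg hgz))) (mul_mem (hreg ?_) (hreg hgy))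
    · rw [hz, FF.ord_div Q (mul_ne_zero hx0 hy0) (pow_ne_zero _ ht0), Q.ord_mul hx0 hy0,
        FF.ord_pow, htQ, hyQ]
      push_cast; omega
    · rw [FF.ord_div Q hx0 ht0, htQ]; omega
  have hE0 : E ≠ 0 := fun h' => hy0 (by rw [hy', h', mul_zero])
  have hEQ := (FF.mem_iff_ord_nonneg Q).mp hmem
  rw [hy', Q.ord_mul ht0 hE0, htQ] at hyQ
  omega

/-- **`j̄` is unramified away from `0` and `1728`.** -/
theorem ord_jC_sub_eq_one (hMk : (M : k) ≠ 0) (hπ : Function.Surjective π)
    (hgen : genusFF Qbar (modularFunctionFieldBar M) ≤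
      genusFF k (modularFunctionFieldFullC k M))
    (h : ReductionInputsAlong A π M) {a : k} (ha : a ≠ 0) (ha' : a ≠ 1728)
    {Q : Place k (modularFunctionFieldFullC k M)}
    (hQ : 0 < Q.ord (jC k M - algebraMap k _ a)) :
    Q.ord (jC k M - algebraMap k _ a) = 1 := by
  classical
  obtain ⟨r, hr, -⟩ := h
  have hdeg := sameDegree_of_ne_zero (k := k) hMk
  let G := Red.gaussData (A := A) (π := π) (N := M) hπ hdeg
  set jM : modularFunctionFieldBar M := (G.x : modularFunctionFieldBar M) with hjM
  have hj : (jM : LaurentSeries Qbar) = jqModC Qbar := qExpand_one_apply _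
  have hxb : G.ρ G.x = jC k M := Subtype.ext (by
    show (integralReduction A π M (jIntegral A π M 1 (one_dvd M)) : LaurentSeries k) = _
    rw [coe_integralReduction_jIntegral, qExpand_one_apply]
    rfl)
  -- the fibre over `Q`
  have hval : ∀ b : k, 0 < Q.ord (jC k M - algebraMap k _ b) → b = a := fun b hb =>
    FF.const_unique Q (Or.inr hb) (Or.inr hQ)
  have hQ0 : 0 ≤ Q.ord (jC k M) := by
    have h1 : jC k M - algebraMap k _ a ∈ Q.toValuationSubring :=
      (FF.mem_iff_ord_nonneg Q).mpr hQ.le
    have := (FF.mem_iff_ord_nonneg Q).mp (add_mem h1 (Q.algebraMap_mem' a))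
    rwa [sub_add_cancel] at this
  have hzero : ∀ c : A, π c ≠ a → ∀ P, r P = Q →
      P.ord (jM - algebraMap Qbar _ (c : Qbar)) ≤ 0 := fun c hc P hP => by
    have h1 : Finsupp.mapDomain r
        (FF.zeroDiv (K := Qbar) (jM - algebraMap Qbar _ (c : Qbar))) Q = 0 := by
      rw [(mapDomain_zeroDiv_poleDiv hMk hr hj c).1, FF.zeroDiv_apply,
        max_eq_right (not_lt.mp fun hlt => hc (hval _ hlt))]
    have := eq_zero_of_mapDomain_eq_zero
      (fun P => by rw [FF.zeroDiv_apply]; exact le_max_right _ _) h1 hP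
    rw [FF.zeroDiv_apply] at this
    omega
  have hP0 : ∀ P, r P = Q → P.ord jM ≤ 0 := fun P hP => by
    simpa using hzero 0 (by rw [map_zero]; exact ha.symm) P hP
  have hP1728 : ∀ P, r P = Q → P.ord (jM - algebraMap Qbar _ 1728) ≤ 0 := fun P hP => by
    have h1 := hzero (1728 : A) (by rw [map_ofNat]; exact ha'.symm) P hP
    rwa [show ((1728 : A) : Qbar) = 1728 from map_ofNat A.subtype 1728] at h1
  have hPnn : ∀ P, r P = Q → 0 ≤ P.ord jM := fun P hP => by
    have h1 : Finsupp.mapDomain r (FF.poleDiv (K := Qbar) jM) Q = 0 := by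
      have := (mapDomain_zeroDiv_poleDiv hMk hr hj (0 : A)).2
      simp only [ZeroMemClass.coe_zero, map_zero, sub_zero] at this
      rw [this, FF.poleDiv_apply]
      omega
    have := eq_zero_of_mapDomain_eq_zero
      (fun P => by rw [FF.poleDiv_apply]; exact le_max_right _ _) h1 hP
    rw [FF.poleDiv_apply] at this
    omega
  -- lifts
  obtain ⟨n₁, hn₁⟩ := ((G.genus_eq_and_latticeSurj (by rfl) hgen).2).surj
  set D := FF.poleDiv (K := k) (jC k M) with hD
  rw [hxb] at hn₁
  have hderiv : ∀ m ≥ n₁, ∀ w ∈ riemannRochSpace (m • D),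
      ∃ g : modularFunctionFieldFullC k M, 0 ≤ Q.ord g ∧
        qTheta (w : LaurentSeries k) = (g : LaurentSeries k) * qTheta (jqModC k) := by
    intro m hm w hw
    rw [← hn₁ m hm] at hw
    obtain ⟨u, hu, rfl⟩ := hw
    exact exists_qTheta_eq_mul hπ hdeg hr hj
      (fun P hP => ⟨hPnn P hP, hP0 P hP, hP1728 P hP⟩) u hu
  exact ord_sub_eq_one_of_qTheta hQ hQ0 hderiv

end Fermat.Agent.LoweringAtP.Three

end
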