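import Fermat.Agent.LoweringAtP.HeckeCompat.DeltaNorm
import Fermat.Agent.TwoComponent.ModelNodes

/-!
# In characteristic three the reduced unit is `j̄ ^ 2`

This locates the places where the lowering argument at `3` can fail.
-/

noncomputable section

namespace Fermat.Agent.LoweringAtP.Three

open AlgebraicCurve ModularCurve Fermat.Agent.Igusa

variable (k : Type*) [Field k] [CharP k 3]

theorem eisenstein4_map_eq_one : eisenstein4.map (Int.castRingHom k) = 1 := by
  ext n
  rw [PowerSeries.coeff_map, PowerSeries.coeff_one, eisenstein4, PowerSeries.coeff_mk]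
  split_ifs with h
  · simp
  · have h3 : ((240 : ℤ) : k) = 0 := (CharP.intCast_eq_zero_iff k 3 240).mpr ⟨80, rfl⟩
    rw [eq_intCast, Int.cast_mul, h3, zero_mul]

/-- `j̄ = Δ̄⁻¹`. -/
theorem jqModC_eq_deltaSerInv : jqModC k = deltaSerInv k := by
  rw [jqModC, deltaSerInv, jNum, map_mul, map_pow, eisenstein4_map_eq_one, one_pow, one_mul]

/-- `Δ̄(τ) / Δ̄(3 τ) = j̄ ^ 2`. -/
theorem unitSer_three : HeckeCompat.unitSer k 3 = jqModC k ^ 2 := by
  have : Fact (Nat.Prime 3) := ⟨Nat.prime_three⟩
  have h : qExpand k 3 (jqModC k) = jqModC k ^ 3 := by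
    rw [← jv_one_eq_qExpand, ← jv_one_one, ← TwoComponent.jv_mul_char 3 one_ne_zero, one_mul]
  rw [HeckeCompat.unitSer, ← jqModC_eq_deltaSerInv, h, pow_succ (jqModC k) 2,
    mul_comm (jqModC k ^ 2), ← mul_assoc,
    show deltaSer k * jqModC k = 1 by rw [jqModC_eq_deltaSerInv]; exact deltaSer_mul_inv, one_mul]

variable {k} {N : ℕ} [NeZero N]

omit [NeZero N] in
/-- The orders of the reduced unit are twice those of `j̄`. -/
theorem ord_eq_two_mul_ord_jC {u : modularFunctionFieldFullC k N}
    (hu : (u : LaurentSeries k) = HeckeCompat.unitSer k 3)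
    {jb : modularFunctionFieldFullC k N} (hj : (jb : LaurentSeries k) = jqModC k)
    (Q : Place k (modularFunctionFieldFullC k N)) : Q.ord u = 2 * Q.ord jb := by
  rw [show u = jb ^ 2 from Subtype.ext (by rw [hu, unitSer_three, SubmonoidClass.coe_pow, hj]),
    FF.ord_pow]
  norm_num

end Fermat.Agent.LoweringAtP.Three
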