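import Fermat.Agent.LoweringAtP.Model.UnitOrders
import Fermat.Agent.LoweringAtP.Setup.LevelMap
import Fermat.Agent.Mazur.Disc.Points

/-!
# Roots of prime order do not appear in an auxiliary covering

For a prime `t ∤ M p` the covering `X₀(M t p) → X₀(M p)` has degree `t + 1` and a cusp of
ramification index `t`, so it has no subcovering of a prime degree `d < t`.
-/

noncomputable section

open ModularCurve AlgebraicCurve Fermat.Agent.Igusa Fermat.Agent.TwoComponent

namespace Fermat.Agent.LoweringAtP.Three

/-! ### fields with a valuation -/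

section Abstract

variable {K E : Type*} [Field K] [Field E] [Algebra K E] [Module.Finite K E]
variable {L : Type*} [Field L] (φ : E →+* LaurentSeries L)

/-- A value of order prime to `t`, while the subfield only has orders divisible by `t`, forces
degree at least `t`. -/
theorem le_finrank_of_order {t : ℕ} (ht : t.Prime)
    (hK : ∀ x : K, (t : ℤ) ∣ (φ (algebraMap K E x)).order) {z : E}
    (hz : ¬ (t : ℤ) ∣ (φ z).order) : t ≤ Module.finrank K E := by
  classical
  have hz0 : z ≠ 0 := fun h => hz (by rw [h, map_zero, HahnSeries.order_zero]; exact dvd_zero _)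
  have hφz : φ z ≠ 0 := (map_ne_zero φ).mpr hz0
  have hpow : ∀ i : ℕ, (φ z ^ i).order = i * (φ z).order := fun i => by
    induction i with
    | zero => simp
    | succ i ih =>
      rw [pow_succ, HahnSeries.order_mul (pow_ne_zero _ hφz) hφz, ih]
      push_cast
      ring
  have hli : LinearIndependent K fun i : Fin t => z ^ (i : ℕ) := by
    rw [Fintype.linearIndependent_iff]
    intro g hg
    by_contra! hne
    set f : Fin t → LaurentSeries L := fun i => φ (g i • z ^ (i : ℕ)) with hf
    have hsum : ∑ i, f i = 0 := by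
      rw [show ∑ i, f i = φ (∑ i, g i • z ^ (i : ℕ)) from (map_sum φ _ _).symm, hg, map_zero]
    have hord : ∀ i, g i ≠ 0 → f i ≠ 0 ∧
        ∃ k : ℤ, (f i).order = t * k + (i : ℕ) * (φ z).order := fun i hi => by
      obtain ⟨k, hk⟩ := hK (g i)
      have h1 : φ (algebraMap K E (g i)) ≠ 0 := (map_ne_zero φ).mpr ((map_ne_zero _).mpr hi)
      rw [hf]
      simp only [Algebra.smul_def, map_mul, map_pow]
      refine ⟨mul_ne_zero h1 (pow_ne_zero _ hφz), k, ?_⟩
      rw [HahnSeries.order_mul h1 (pow_ne_zero _ hφz), hk, hpow]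
    obtain ⟨i₀, hi₀, hmin⟩ := (Finset.univ.filter fun i => g i ≠ 0).exists_min_image
      (fun i => (f i).order) (by
        obtain ⟨i, hi⟩ := hne
        exact ⟨i, Finset.mem_filter.mpr ⟨Finset.mem_univ i, hi⟩⟩)
    rw [Finset.mem_filter] at hi₀
    have h0 := congrArg (fun s : LaurentSeries L => s.coeff (f i₀).order) hsum
    simp only [HahnSeries.coeff_zero, HahnSeries.coeff_sum] at h0
    rw [Finset.sum_eq_single i₀] at h0
    · exact (hord i₀ hi₀.2).1 (HahnSeries.coeff_order_eq_zero.mp h0)
    · intro i _ hi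
      by_cases hgi : g i = 0
      · rw [hf]
        simp [hgi]
      · refine HahnSeries.coeff_eq_zero_of_lt_order ?_
        refine lt_of_le_of_ne (hmin i (Finset.mem_filter.mpr ⟨Finset.mem_univ i, hgi⟩)) fun he => ?_
        obtain ⟨-, a, ha⟩ := hord i₀ hi₀.2
        obtain ⟨-, b, hb⟩ := hord i hgi
        rw [ha, hb] at he
        have hd : (t : ℤ) ∣ (((i : ℕ) : ℤ) - ((i₀ : ℕ) : ℤ)) * (φ z).order :=
          ⟨a - b, by linear_combination -he⟩
        rcases (Nat.prime_iff_prime_int.mp ht).dvd_or_dvd hd with h | h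
        · have h1 := Int.eq_zero_of_abs_lt_dvd h (by
            have := i.isLt; have := i₀.isLt; rw [abs_lt]; constructor <;> omega)
          exact hi (Fin.ext (by omega))
        · exact hz h
    · intro h; exact absurd (Finset.mem_univ i₀) h
  simpa using hli.fintype_card_le_finrank

/-- No subcovering of prime degree `d < t` in a covering of degree `t + 1` with an index `t`. -/
theorem exists_eq_of_pow_eq {t d : ℕ} (ht : t.Prime) (hd : d.Prime) (hdt : d < t)
    (hdeg : Module.finrank K E = t + 1)
    (hK : ∀ x : K, (t : ℤ) ∣ (φ (algebraMap K E x)).order) {z : E}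
    (hz : ¬ (t : ℤ) ∣ (φ z).order) {h : E} {f : K} (hpow : h ^ d = algebraMap K E f)
    (hroots : ∀ y : E, y ^ d = algebraMap K E f → ∃ c : K, y = algebraMap K E c * h) :
    ∃ g : K, algebraMap K E g = h := by
  classical
  by_cases hex : ∃ g : K, g ^ d = f
  · obtain ⟨g, rfl⟩ := hex
    obtain ⟨c, hc⟩ := hroots (algebraMap K E g) (map_pow _ g d).symm
    by_cases hc0 : c = 0
    · refine ⟨0, ?_⟩
      rw [hc0, map_zero, zero_mul] at hc
      rw [map_pow, hc, zero_pow hd.ne_zero] at hpow
      rw [map_zero, eq_zero_of_pow_eq_zero hpow]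
    · exact ⟨g / c, by rw [map_div₀, hc, mul_div_cancel_left₀ _ ((map_ne_zero _).mpr hc0)]⟩
  push Not at hex
  exfalso
  have hirr : Irreducible (Polynomial.X ^ d - Polynomial.C f) :=
    X_pow_sub_C_irreducible_of_prime hd fun b => hex b
  have hmin : minpoly K h = Polynomial.X ^ d - Polynomial.C f :=
    (minpoly.eq_of_irreducible_of_monic hirr (by simp [hpow])
      (Polynomial.monic_X_pow_sub_C f hd.ne_zero)).symm
  set B := IntermediateField.adjoin K ({h} : Set E)
  have hB : Module.finrank K B = d := by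
    rw [IntermediateField.adjoin.finrank (IsIntegral.of_finite K h), hmin,
      Polynomial.natDegree_X_pow_sub_C]
  have hBv : ∀ b : B, (t : ℤ) ∣ (φ (algebraMap B E b)).order := fun b => by
    by_contra hb
    have := le_finrank_of_order (φ := φ.comp (algebraMap B E)) ht
      (fun x => by
        rw [RingHom.comp_apply, ← IsScalarTower.algebraMap_apply K B E]
        exact hK x) (z := b) hb
    omega
  have h2 := le_finrank_of_order (φ := φ) ht hBv hz
  have h3 := Module.finrank_mul_finrank K B E
  rw [hB, hdeg] at h3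
  nlinarith [hd.two_le, ht.two_le]

end Abstract

/-! ### the auxiliary covering -/

local notation "Qbar" => AlgebraicClosure ℚ

variable {p : ℕ} [Fact p.Prime] {M t : ℕ} [NeZero M] [Fact t.Prime]

/-- The expansion at a second cusp embeds the field of level `N t` in Laurent series: the orders of
the functions of level `N` are divisible by `t`, and not all orders are. -/
theorem exists_embedding_cusp {N : ℕ} [NeZero N] (htN : ¬ t ∣ N)
    (F : IntermediateField Qbar (LaurentSeries Qbar)) (hF : F = TwoComponent.FN N t) :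
    ∃ (ψ : F →+* LaurentSeries Qbar) (z : F), ¬ (t : ℤ) ∣ (ψ z).order ∧
      ∀ (x : modularFunctionFieldBar N) (y : F),
        (y : LaurentSeries Qbar) = (x : LaurentSeries Qbar) → (t : ℤ) ∣ (ψ y).order := by
  subst hF
  refine ⟨(algebraMap (TwoComponent.FN N t) (LaurentSeries Qbar)).comp
    (TwoComponent.wAL N t htN : TwoComponent.FN N t →+* TwoComponent.FN N t),
    TwoComponent.wAL N t htN (TwoComponent.jOne N t), ?_, fun x y hy => ?_⟩
  · show ¬ (t : ℤ) ∣ ((TwoComponent.wAL N t htN (TwoComponent.wAL N t htN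
      (TwoComponent.jOne N t)) : TwoComponent.FN N t) :
      LaurentSeries Qbar).order
    rw [TwoComponent.wAL_wAL, TwoComponent.jOne, TwoComponent.coe_jEl]
    have h2 := Model.order_evalAt_jv (k := Qbar) (Polynomial.X_ne_zero)
    rw [evalAt_X, Polynomial.natDegree_X] at h2
    rw [h2, dvd_neg, Int.natCast_dvd_natCast]
    exact (Fact.out : t.Prime).not_dvd_one
  · obtain rfl : y = TwoComponent.inclM N t x :=
      Subtype.ext (hy.trans (TwoComponent.coe_inclM N t x).symm)
    show (t : ℤ) ∣ ((TwoComponent.wAL N t htN (TwoComponent.inclM N t x) : TwoComponent.FN N t) :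
      LaurentSeries Qbar).order
    rw [TwoComponent.coe_wAL_inclM, Mazur.Disc.order_qExpand]
    exact dvd_mul_right _ _

/-- Roots of the same order differ by a constant. -/
theorem exists_const_mul_of_pow_eq {F : Type*} [Field F] [Algebra Qbar F] {d : ℕ} (hd : 0 < d)
    {y h : F} (he : y ^ d = h ^ d) : ∃ c : Qbar, y = algebraMap Qbar F c * h := by
  rcases eq_or_ne h 0 with rfl | h0
  · rw [zero_pow hd.ne'] at he
    exact ⟨0, by rw [mul_zero, eq_zero_of_pow_eq_zero he]⟩
  have : NeZero d := ⟨hd.ne'⟩
  have : NeZero (d : Qbar) := ⟨Nat.cast_ne_zero.mpr hd.ne'⟩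
  obtain ⟨z, hz⟩ := HasEnoughRootsOfUnity.exists_primitiveRoot Qbar d
  obtain ⟨i, -, hi⟩ := (hz.map_of_injective (f := algebraMap Qbar F)
    (algebraMap Qbar F).injective).eq_pow_of_pow_eq_one (ξ := y / h)
    (by rw [div_pow, he, div_self (pow_ne_zero _ h0)])
  exact ⟨z ^ i, by rw [map_pow, hi, div_mul_cancel₀ _ h0]⟩

/-- **No root of prime order `d < t` appears from level `M p` to level `M t p`.** -/
theorem exists_levelMap_eq_of_pow_eq (htM : ¬ t ∣ M * p) {d : ℕ} (hd : d.Prime) (hdt : d < t)
    [NeZero (M * t)] {f : TwoComponent.FN M p} {h : TwoComponent.FN (M * t) p}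
    (hpow : h ^ d = Setup.levelMap p (dvd_mul_right M t) f) :
    ∃ g : TwoComponent.FN M p, Setup.levelMap p (dvd_mul_right M t) g = h := by
  have hp : p.Prime := Fact.out
  have ht : t.Prime := Fact.out
  have : NeZero (M * p) := ⟨mul_ne_zero (NeZero.ne M) hp.ne_zero⟩
  set φ := Setup.levelMap (M := M) (L := M * t) p (dvd_mul_right M t) with hφ
  let := algebraAlong φ
  have := isScalarTower_along φ
  have hpsi : psi (M * t * p) = (t + 1) * psi (M * p) := by
    rw [mul_right_comm, psi_mul_prime (NeZero.ne (M * p)) ht, if_neg htM, mul_comm]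
  have hfr : Module.finrank (TwoComponent.FN M p) (TwoComponent.FN (M * t) p) = t + 1 :=
    Setup.finrank_levelMap p (dvd_mul_right M t) hpsi
  have : Module.Finite (TwoComponent.FN M p) (TwoComponent.FN (M * t) p) :=
    Module.finite_of_finrank_pos (hfr ▸ Nat.succ_pos t)
  obtain ⟨ψ, z, hz, hψ⟩ := exists_embedding_cusp htM (TwoComponent.FN (M * t) p)
    (congrArg modularFunctionFieldBar (mul_right_comm M t p))
  refine exists_eq_of_pow_eq (K := TwoComponent.FN M p) (E := TwoComponent.FN (M * t) p) ψ ht
    hd hdt hfr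
    (fun x => hψ x _ (Setup.coe_levelMap p _ x)) hz hpow fun y hy => ?_
  obtain ⟨c, hc⟩ := exists_const_mul_of_pow_eq hd.pos (hy.trans hpow.symm)
  exact ⟨algebraMap Qbar _ c, hc.trans (by rw [← IsScalarTower.algebraMap_apply])⟩

end Fermat.Agent.LoweringAtP.Three
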