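import Fermat.Agent.LoweringAtP.Setup.Main
import Fermat.Agent.LoweringAtP.Three.Root

/-!
# Mazur's principle at `p` along a covering without roots

The level argument with the hypothesis on the degree replaced by the absence of new `p`-th roots in
the function field of level `L p`; used for `p = 3`.
-/

noncomputable section

open ModularCurve AlgebraicCurve Fermat.Agent.Igusa Fermat.Agent.TwoComponent

namespace Fermat.Agent.LoweringAtP.Three

open Setup

local notation "Qbar" => AlgebraicClosure ℚ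

/-- Pullback is injective on `m`-torsion classes if no new `m`-th roots appear. -/
theorem mem_principal_of_roots {K F F' : Type*} [Field K] [IsAlgClosed K] [Field F] [Field F']
    [Algebra K F] [Algebra K F'] [FF.IsFunctionField K F] [FF.IsFunctionField K F']
    (φ : F →ₐ[K] F') {m : ℕ} (hm : 0 < m)
    (hroot : ∀ (f : F) (h : F'), h ^ m = φ f → ∃ g, φ g = h)
    {D : Divisor K F} {f : F} (hf : f ≠ 0) (hdiv : ∀ P : Place K F, P.ord f = (m : ℤ) * D P)
    (h : Divisor.pullbackAlong φ (integral_along φ) D ∈ Divisor.principal (K := K) (F := F')) :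
    D ∈ Divisor.principal (K := K) (F := F) := by
  obtain ⟨u, hu, huD⟩ := h
  obtain ⟨a, ha, hua⟩ := (FF.divOf_eq_zero_iff (K := K)
    (div_ne_zero ((map_ne_zero φ).mpr hf) (pow_ne_zero m hu))).mp <| by
      refine Finsupp.ext fun Q => ?_
      rw [FF.divOf_apply, FF.ord_div Q ((map_ne_zero φ).mpr hf) (pow_ne_zero _ hu), FF.ord_pow,
        ord_pullback φ hdiv, huD Q, Finsupp.zero_apply, sub_self]
  rw [div_eq_iff (pow_ne_zero _ hu)] at hua
  obtain ⟨b, hb⟩ := IsAlgClosed.exists_pow_nat_eq a hm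
  obtain ⟨g, hg⟩ := hroot f (algebraMap K F' b * u) (by rw [mul_pow, ← map_pow, hb, hua])
  have hgf : g ^ m = f := by
    apply (φ : F →+* F').injective
    show φ (g ^ m) = φ f
    rw [map_pow, hg, mul_pow, ← map_pow, hb, hua]
  have hg0 : g ≠ 0 := fun h0 => hf (by rw [← hgf, h0, zero_pow hm.ne'])
  refine ⟨g, hg0, fun P => ?_⟩
  have h1 := hdiv P
  rw [← hgf, FF.ord_pow] at h1
  exact (mul_left_cancel₀ (Int.natCast_ne_zero.mpr hm.ne') h1).symm

variable {p : ℕ} [hp : Fact p.Prime] {M L : ℕ} [NeZero M] [NeZero L] {hpL : ¬ p ∣ L}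
variable {A : ValuationSubring (AlgebraicClosure ℚ)}
  {k : Type*} [Field k] [CharP k p] [IsAlgClosed k]
  {π : A →+* k} {hres : TwoComponent.ResidueAt A p π}
  {hgen : genusFF (AlgebraicClosure ℚ) (modularFunctionFieldBar L) ≤ genusFF k
    (TwoComponent.CK L k)}

/-- **The level argument, without roots.** -/
theorem levelArgument_of_noRoots (hML : M ∣ L)
    (hroot : ∀ (f : TwoComponent.FN M p) (h : TwoComponent.FN L p), h ^ p = levelMap p hML f →
      ∃ g, levelMap p hML g = h)
    (hp2 : p ≠ 2) (MI : ModelInputs p L hpL hres hgen)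
    {D : Divisor.degZero (K := Qbar) (F := TwoComponent.FN M p)} (hD : Pic0.mk D ≠ 0)
    {f₀ : TwoComponent.FN M p} (hf₀ : f₀ ≠ 0)
    (hdiv : ∀ Q : Place Qbar (TwoComponent.FN M p),
      Q.ord f₀ = (p : ℤ) * (D : Divisor Qbar (TwoComponent.FN M p)) Q)
    {t : A} {a : Fin p → A} (ha : ∀ j, (a j : Qbar) ∈ PeuRamifie.inertiaField A)
    (ha0 : A.valuation (a ⟨0, (Fact.out : p.Prime).pos⟩ : Qbar) = 1)
    (he : (t : Qbar) ^ p = (p : Qbar) * ∑ j, (a j : Qbar) * (t : Qbar) ^ (j : ℕ))
    (hfix : CoeffFixed (N := M * p) (A.inertiaSubgroupIn ℚ) f₀ ∨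
      (A.valuation (a ⟨1, (Fact.out : p.Prime).one_lt⟩ : Qbar) = 1 ∧
        CoeffFixed (N := M * p) (inertiaStab A (t : Qbar)) f₀))
    {R : Prop}
    (hG : ∀ X : EisData MI.Q₀ p, CoeffFixed (N := M * p) (inertiaStab A (X.ϖ : Qbar)) f₀ →
      (∀ i (P : Place k (TwoComponent.CK L k)),
        (∀ s, (TwoComponent.modelTwoRed L p hpL hres hgen).br s i ≠ P) →
          (p : ℤ) ∣ redOrd ((TwoComponent.modelTwoRed L p hpL hres hgen).R i)
            (levelMap p hML f₀) P) →
      HeckeInputs MI hML R f₀ X) : R :=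
  levelArgument hML hp2 MI hD hf₀ hdiv ha ha0 he hfix
    (mem_principal_of_roots (levelMap p hML) hp.out.pos hroot hf₀ hdiv) hG

end Fermat.Agent.LoweringAtP.Three
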