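import Fermat.Agent.LoweringAtP.HeckeCompat.Mazur
import Fermat.Agent.LoweringAtP.Setup.Main

/-!
# The Hecke inputs of Mazur's principle at `p`

The three Hecke inputs for a function of level `M p` with eigen divisor class, given that a
function of level `M` over the residue field has all orders divisible by `p` as soon as it is an
eigenvector modulo `p`-th powers whose pullback to level `L` has this property.
-/

noncomputable section

namespace Fermat.Agent.LoweringAtP.Three

open AlgebraicCurve ModularCurve WeierstrassCurve.Affine.Point Fermat.Agent.Red Fermat.Agent.Igusa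
  Fermat.Agent.TwoComponent Fermat.Agent.LoweringAtP.HeckeCompat

local notation "Qbar" => AlgebraicClosure ℚ

section Inputs

variable {p : ℕ} [Fact p.Prime] {W : WeierstrassCurve ℤ} (hΔ : W.Δ ≠ 0)
variable {M L : ℕ} [NeZero M] [NeZero L] (hML : M ∣ L) (hpL : ¬ p ∣ L)
variable {A : ValuationSubring Qbar} {k : Type*} [Field k] [CharP k p] [IsAlgClosed k]
  {π : A →+* k} (hres : TwoComponent.ResidueAt A p π)
variable (hgen : genusFF Qbar (modularFunctionFieldBar L) ≤ genusFF k (TwoComponent.CK L k))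
variable {S : Finset ℕ} {f₀ : TwoComponent.FN M p} (hf₀ : f₀ ≠ 0)
variable {D₀ : Divisor.degZero (K := Qbar) (F := TwoComponent.FN M p)}
variable (hdiv : ∀ Q : Place Qbar (TwoComponent.FN M p),
  Q.ord f₀ = (p : ℤ) * (D₀ : Divisor Qbar (TwoComponent.FN M p)) Q)
variable (heig : ∀ r : Nat.Primes, (r : ℕ) ∉ S →
  heckeOperatorBar (M * p) r (Pic0.mk D₀) = W.apOfModel r • Pic0.mk D₀)

include hΔ hf₀ hdiv heig in
/-- If all orders of both reductions are divisible by `p`, the representation is modular of level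
`M` or both reductions are `p`-th powers up to constants. -/
theorem redPowers_or_modular_of (hI : ReductionInputsAlong A π M)
    (hdef : ∀ g : TwoComponent.CK M k, g ≠ 0 →
          (∀ Q' : Place k (TwoComponent.CK L k), (p : ℤ) ∣ Q'.ord (inclC k hML g)) →
      (∀ (r : ℕ) [NeZero r] [Fact r.Prime], ¬ r ∣ M → r ≠ p → r ∉ S → ∃ t : k, t ≠ 0 ∧
        ∃ w : TwoComponent.CK M k, w ≠ 0 ∧
          normC k M r g = algebraMap k _ t * g ^ W.apOfModel r * w ^ p) →
      ∀ Q : Place k (TwoComponent.CK M k), (p : ℤ) ∣ Q.ord g)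
    (hall : ∀ i Q, (p : ℤ) ∣ TwoComponent.redOrd ((TwoComponent.modelTwoRed L p hpL hres hgen).R i)
      (Setup.levelMap p hML f₀) Q) :
    W.IsResiduallyModularOfLevel p M ∨
      RedPowers (TwoComponent.modelTwoRed L p hpL hres hgen) p (Setup.levelMap p hML f₀) := by
  classical
  by_cases hR : W.IsResiduallyModularOfLevel p M
  · exact Or.inl hR
  right
  intro i
  set T := TwoComponent.modelTwoRed L p hpL hres hgen with hT
  set f := Setup.levelMap p hML f₀ with hf
  have hp : p.Prime := Fact.out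
  have hpM : ¬ p ∣ M := fun h => hpL (h.trans hML)
  have hLk : (L : k) ≠ 0 := fun h => hpL ((CharP.cast_eq_zero_iff k p L).mp h)
  have hMk : (M : k) ≠ 0 := fun h => hpM ((CharP.cast_eq_zero_iff k p M).mp h)
  have := TwoComponent.isFunctionField_CK M p hpM (k := k)
  have := TwoComponent.isFunctionField_CK L p hpL (k := k)
  obtain ⟨c₀, u, u', hu₀, hue, hu', hfe, hr⟩ := exists_unit_level hML hpL hres hf₀ i
  set g := (TwoComponent.redC M p hpM hres i).red u with hg
  have hf0 : f ≠ 0 := (map_ne_zero _).mpr hf₀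
  have hdvd : ∀ Q : Place k (TwoComponent.CK M k), (p : ℤ) ∣ Q.ord g := by
    refine hdef g hu₀ (fun Q' => ?_) fun r _ _ hrM hrp hrS => ?_
    · have h := hall i Q'
      rw [TwoComponent.redOrd_eq (T.R i) hf0 hu' hfe Q'] at h
      rw [← hr]
      exact h
    · have he := heig ⟨r, Fact.out⟩ hrS
      rw [heckeOperatorBar_apply] at he
      obtain ⟨c, h, -, hh, hrel⟩ :=
        exists_normN_eq_of_eigen (L := Qbar) (N := M * p) (ℓ := r) hf₀ hdiv he
      exact exists_normC_rel (normCompat_redC hpM hres hrM hrp i) hf₀ hh hrel hu₀ hue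
  set E₀ := (FF.divOf (K := k) g).mapRange (· / (p : ℤ)) (Int.zero_ediv _)
  have hE₀ : ∀ Q, (p : ℤ) * E₀ Q = Q.ord g := fun Q => by
    rw [Finsupp.mapRange_apply, FF.divOf_apply, Int.mul_ediv_cancel' (hdvd Q)]
  have hdeg : Divisor.degree E₀ = 0 := by
    have h : (p : ℤ) • E₀ = FF.divOf (K := k) g := Finsupp.ext fun Q => by
      rw [Finsupp.smul_apply, smul_eq_mul, hE₀, FF.divOf_apply]
    have h2 := congrArg (Divisor.degree (K := k) (F := TwoComponent.CK M k)) h
    rw [map_zsmul, FF.degree_divOf, smul_eq_mul, mul_eq_zero] at h2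
    exact h2.resolve_left (Int.natCast_ne_zero.mpr hp.ne_zero)
  let E : Divisor.degZero (K := k) (F := TwoComponent.CK M k) := ⟨E₀, Divisor.mem_degZero.mpr hdeg⟩
  have hE : ∀ Q, TwoComponent.redOrd (TwoComponent.redC M p hpM hres i) f₀ Q =
      (p : ℤ) * (E : Divisor k (TwoComponent.CK M k)) Q := fun Q =>
    (TwoComponent.redOrd_eq _ hf₀ hu₀ hue Q).trans (hE₀ Q).symm
  have hE0 : Pic0.mk E = 0 := by
    by_contra hne
    refine hR ?_
    obtain ⟨Ins⟩ := Attach.nonempty_jacobianInputs M p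
    refine residuallyModular_of_eigen_modL Ins hΔ hres.surj hMk hI (q := p)
      (C := Pic0.mk E) hne ?_ (S := S) fun r _ _ hrM hrp hrS => ?_
    · show p • QuotientAddGroup.mk' _ E = 0
      rw [← map_nsmul]
      refine (QuotientAddGroup.eq_zero_iff _).mpr (AddSubgroup.mem_addSubgroupOf.mpr
        ⟨g, hu₀, fun Q => ?_⟩)
      rw [AddSubmonoidClass.coe_nsmul, Finsupp.smul_apply, nsmul_eq_mul]
      exact hE₀ Q
    · have he := heig ⟨r, Fact.out⟩ hrS
      rw [heckeOperatorBar_apply] at he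
      exact heckeC_eq_of_eigen (normCompat_redC hpM hres hrM hrp i) hp.pos hf₀ hdiv he hE
  obtain ⟨h, hh, hhE⟩ :=
    AddSubgroup.mem_addSubgroupOf.mp ((QuotientAddGroup.eq_zero_iff E).mp hE0)
  obtain ⟨a, ha, hga⟩ :=
    (FF.divOf_eq_zero_iff (K := k) (div_ne_zero hu₀ (pow_ne_zero p hh))).mp <| by
      refine Finsupp.ext fun Q => ?_
      rw [FF.divOf_apply, FF.ord_div Q hu₀ (pow_ne_zero _ hh), FF.ord_pow, ← hE₀ Q,
        show E₀ Q = Q.ord h from hhE Q, Finsupp.zero_apply, sub_self]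
  rw [div_eq_iff (pow_ne_zero _ hh)] at hga
  intro d v hv hfv
  have hd : d ≠ 0 := fun h0 => hf0 (by rw [hfv, h0, _root_.map_zero, zero_mul])
  obtain ⟨t, -, ht⟩ := exists_red_eq_smul (T.R i) hv hu' (e := c₀ / d) <| by
    rw [map_div₀, div_mul_eq_mul_div, ← hfe, eq_div_iff ((map_ne_zero _).mpr hd), mul_comm]
    exact hfv.symm
  refine ⟨t * a, inclC k hML h, ?_⟩
  rw [ht, show (T.R i).red u' = (TwoComponent.redC L p hpL hres i).red u' from rfl, hr, hga,
    map_mul,
    map_pow, (inclC k hML).commutes, map_mul, mul_assoc]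

end Inputs

/-- **The Hecke inputs** for a residual eigenvector of an integral model. -/
theorem heckeInputs_of {p : ℕ} [Fact p.Prime] (hp2 : p ≠ 2) {M L : ℕ} [NeZero M] [NeZero L]
    (hML : M ∣ L) (hpL : ¬ p ∣ L)
    {W : WeierstrassCurve ℤ} (hΔ : W.Δ ≠ 0) (hirr : W.ModRepIsIrreducible p)
    {A : ValuationSubring (AlgebraicClosure ℚ)} (hA : A.LiesOverPrime p)
    [CharP (IsLocalRing.ResidueField A) p] [IsAlgClosed (IsLocalRing.ResidueField A)]
    (MI : Setup.ModelInputs p L hpL (Setup.residueAt hA) (Red.genus_le A hpL hA))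
    {D : Divisor.degZero (K := Qbar) (F := TwoComponent.FN M p)} {f₀ : TwoComponent.FN M p}
    (hf₀ : f₀ ≠ 0) (hdiv : ∀ Q : Place Qbar (TwoComponent.FN M p),
      Q.ord f₀ = (p : ℤ) * (D : Divisor Qbar (TwoComponent.FN M p)) Q)
    (heig : ∀ ℓ : Nat.Primes, (ℓ : ℕ) ∉ badSet (M * p) p W →
      heckeOperatorBar (M * p) ℓ (Pic0.mk D) = W.apOfModel ℓ • Pic0.mk D)
    (X : EisData MI.Q₀ p)
    (hfix : Setup.CoeffFixed (N := M * p) (Setup.inertiaStab A (X.ϖ : Qbar)) f₀)
    (hoff : ∀ i (Q : Place (IsLocalRing.ResidueField A)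
        (TwoComponent.CK L (IsLocalRing.ResidueField A))),
      (∀ s, (TwoComponent.modelTwoRed L p hpL (Setup.residueAt hA) (Red.genus_le A hpL hA)).br s
        i ≠ Q) →
        (p : ℤ) ∣ redOrd ((TwoComponent.modelTwoRed L p hpL (Setup.residueAt hA)
          (Red.genus_le A hpL hA)).R i) (Setup.levelMap p hML f₀) Q)
    (hdef : ∀ g : TwoComponent.CK M (IsLocalRing.ResidueField A), g ≠ 0 →
      (∀ Q' : Place (IsLocalRing.ResidueField A) (TwoComponent.CK L (IsLocalRing.ResidueField A)),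
        (p : ℤ) ∣ Q'.ord (inclC (IsLocalRing.ResidueField A) hML g)) →
      (∀ (r : ℕ) [NeZero r] [Fact r.Prime], ¬ r ∣ M → r ≠ p → r ∉ badSet (M * p) p W →
        ∃ t : IsLocalRing.ResidueField A, t ≠ 0 ∧
        ∃ w : TwoComponent.CK M (IsLocalRing.ResidueField A), w ≠ 0 ∧
          normC (IsLocalRing.ResidueField A) M r g =
            algebraMap (IsLocalRing.ResidueField A) _ t * g ^ W.apOfModel r * w ^ p) →
      ∀ Q : Place (IsLocalRing.ResidueField A) (TwoComponent.CK M (IsLocalRing.ResidueField A)),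
        (p : ℤ) ∣ Q.ord g) :
    Setup.HeckeInputs MI hML (W.IsResiduallyModularOfLevel p M) f₀ X := by
  set S := badSet (M * p) p W
  set f := Setup.levelMap p hML f₀ with hf
  have hκ : (MI.Ud.κ : ℤ) ≠ 0 := Int.natCast_ne_zero.mpr MI.Ud.κ_pos.ne'
  have hI : ReductionInputsAlong A (IsLocalRing.residue A) M :=
    Red.reductionInputsModL A (fun h => hpL (h.trans hML)) hA
  have hmem : f ∈ X.field := Setup.mem_field_of_fixed X (fun v hv => (MI.mem_F₀ v).mpr hv)
    (Setup.coeffFixed_levelMap hML hfix)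
  refine ⟨?_, fun h => (redPowers_or_modular_of hΔ hML hpL (Setup.residueAt hA)
      (Red.genus_le A hpL hA)
    hf₀ hdiv heig hI hdef h), ?_⟩
  · refine slopesZero_of_congr hΔ hML hpL (Setup.residueAt hA) (Red.genus_le A hpL hA) hf₀ hdiv
      heig hp2 hirr MI.red_v_false hκ MI.Ud.ord_false (fun Q hQ hn => MI.ord_v_false Q ?_ hn)
      (fun Q hQ => hoff false Q hQ)
    rw [show (TwoComponent.xbC L p : TwoComponent.CK L (IsLocalRing.ResidueField A)) =
      jC (IsLocalRing.ResidueField A) L ^ (p + 1) from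
      congrArg (· ^ (p + 1)) (Subtype.ext Igusa.jv_one_one)]
    exact pow_mem ((FF.mem_iff_ord_nonneg Q).mpr hQ) _
  · by_cases hR : W.IsResiduallyModularOfLevel p M
    · exact Or.inl hR
    right
    intro i
    have hNm : (MI.ns X i).N f ∈ Setup.fixedField L (Setup.inertiaStab A (X.ϖ : Qbar)) := by
      rw [← MI.ns_F₁ X i]
      exact (MI.ns X i).N_mem f hmem
    have key : ∀ φ : modularFunctionFieldBar L →ₐ[Qbar] TwoComponent.FN L p,
        (∀ g, (MI.ns X i).N g = Hecke.normAlong φ g) →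
        (∃ (b : Qbar) (h : modularFunctionFieldBar L), b ≠ 0 ∧ h ≠ 0 ∧
          Hecke.normAlong φ f = algebraMap Qbar (modularFunctionFieldBar L) b * h ^ p) →
        ∃ b : Qbar, ∃ h ∈ (MI.ns X i).F₁,
          (MI.ns X i).N f = algebraMap Qbar (modularFunctionFieldBar L) b * h ^ p := by
      rintro φ hφ ⟨b, h, hb, hh, he⟩
      obtain ⟨b', h', -, hh', he'⟩ :=
        exists_fixed_root (Fact.out : p.Prime).pos hNm hb hh ((hφ f).trans he)
      exact ⟨b', h', by rw [MI.ns_F₁ X i]; exact hh', he'⟩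
    obtain ⟨hα, hβ⟩ := (norm_root_or_modular hΔ hML hpL hf₀ hdiv heig).resolve_left hR
    rcases MI.ns_N X i with h | h
    · exact key _ h hα
    · exact key _ h hβ

end Fermat.Agent.LoweringAtP.Three
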