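import Fermat.Agent.Igusa.Degree
import Fermat.Agent.LoweringAtP.HeckeCompat.RedHecke
import Fermat.Agent.LoweringAtP.Three.EllC
import Fermat.Agent.Mazur.Disc.Hecke
import Fermat.Agent.TwoComponent.ModelDegen

/-!
# `T_ℓ` on the reductions of the elliptic points of order three

The places `P` of `X₀(M)` with `ord_P j` prime to `3` satisfy `T_ℓ P ≡ (ℓ + 1) P (mod 3)`; they
specialise onto the places `Q` with `ord_Q j̄` prime to `3`, and specialisation commutes with `T_ℓ`
on divisors of degree zero. So a function whose divisor modulo `3` lives on these places and is an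
eigenvector of `T_ℓ` with eigenvalue `≢ ℓ + 1` has all orders divisible by `3`.
-/

noncomputable section

namespace Fermat.Agent.LoweringAtP.Three

open AlgebraicCurve ModularCurve Fermat.Agent.LoweringAtP.HeckeCompat Fermat.Agent.Red

local notation "Qbar" => AlgebraicClosure ℚ

variable {M ℓ : ℕ} [NeZero M] [hℓ : Fact ℓ.Prime]

/-- `EllC` with the two degeneracy maps exchanged. -/
theorem ord_alpha_eq_ord_beta_of_beta (hℓM : ¬ ℓ ∣ M)
    (w : Place Qbar (modularFunctionFieldBar (M * ℓ))) {jM : modularFunctionFieldBar M}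
    (hj : (jM : LaurentSeries Qbar) = jqModC Qbar)
    (h0 : 0 < w.ord (heckeBetaBar Qbar M ℓ jM))
    (h3 : ¬ (3 : ℤ) ∣ w.ord (heckeBetaBar Qbar M ℓ jM)) (x : modularFunctionFieldBar M) :
    w.ord (heckeAlphaBar Qbar M ℓ x) = w.ord (heckeBetaBar Qbar M ℓ x) := by
  set σ := (TwoComponent.wAL M ℓ hℓM).toAlgHom with hσ
  have hint : σ.toRingHom.IsIntegral := Hecke.isIntegralAlong σ
  set w' := w.restrictAlong σ hint
  set e : ℤ := (Place.ramificationIndexAlong σ w : ℤ)
  have hα : ∀ y, σ (heckeAlphaBar Qbar M ℓ y) = heckeBetaBar Qbar M ℓ y :=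
    TwoComponent.wAL_alpha M ℓ hℓM
  have hβ : ∀ y, σ (heckeBetaBar Qbar M ℓ y) = heckeAlphaBar Qbar M ℓ y :=
    TwoComponent.wAL_beta M ℓ hℓM
  have he : ∀ y, w.ord (σ y) = e * w'.ord y := fun y => Place.ord_restrictAlong σ hint w y
  rw [← hα, he] at h0 h3
  have he0 : 0 ≤ e := Int.natCast_nonneg _
  have h := ord_heckeAlphaBar_eq_ord_heckeBetaBar (Fact.out : ℓ.Prime) (w := w')
    (jE := heckeAlphaBar Qbar M ℓ jM) (by rw [coe_heckeAlphaBar]; exact hj) (by nlinarith)
    (fun h => h3 (dvd_mul_of_dvd_right h _)) x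
  rw [show w.ord (heckeAlphaBar Qbar M ℓ x) = e * w'.ord (heckeBetaBar Qbar M ℓ x) by rw [← he, hβ],
    show w.ord (heckeBetaBar Qbar M ℓ x) = e * w'.ord (heckeAlphaBar Qbar M ℓ x) by
        rw [← he, hα], h]

/-- `T_ℓ` on an elliptic point of order three. -/
theorem dvd_heckeDivBar_single (hℓM : ¬ ℓ ∣ M) (P : Place Qbar (modularFunctionFieldBar M))
    {jM : modularFunctionFieldBar M} (hj : (jM : LaurentSeries Qbar) = jqModC Qbar)
    (h0 : 0 < P.ord jM) (h3 : ¬ (3 : ℤ) ∣ P.ord jM)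
    (R : Place Qbar (modularFunctionFieldBar M)) :
    (3 : ℤ) ∣ heckeDivBar (Hecke.alphaIntegral Qbar M ℓ) (Hecke.betaIntegral Qbar M ℓ)
      (Finsupp.single P 1) R - ((ℓ : ℤ) + 1) * Finsupp.single P (1 : ℤ) R := by
  classical
  set α := heckeAlphaBar Qbar M ℓ
  set β := heckeBetaBar Qbar M ℓ
  have hαi := Hecke.alphaIntegral Qbar M ℓ
  have hβi := Hecke.betaIntegral Qbar M ℓ
  set S := Place.fiberAlong β hβi P
  have hdeg := Divisor.degree_pullbackAlong β hβi (Hecke.fundamentalIdentityAlong β hβi)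
    (Finsupp.single P 1)
  rw [Divisor.pullbackAlong_single, map_sum, Divisor.degree_single] at hdeg
  simp only [Divisor.degree_single, FF.place_deg_eq_one, Nat.cast_one, mul_one, one_mul] at hdeg
  have hsum : ∑ W ∈ S, W.ramificationIndexAlong β = finrankAlong Qbar β := by exact_mod_cast hdeg
  have hT : heckeDivBar hαi hβi (Finsupp.single P 1) =
      ∑ W ∈ S, Finsupp.single (W.restrictAlong α hαi) (W.ramificationIndexAlong β : ℤ) :=
    Mazur.Disc.correspondence_single_eq β α hβi hαi S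
      (fun W hW => Place.mem_fiberAlong.mp hW) hsum.ge
  have hl : ((ℓ : ℤ) + 1) = ∑ W ∈ S, (W.ramificationIndexAlong β : ℤ) := by
    rw [← Nat.cast_sum, hsum, Mazur.Disc.finrankAlong_beta M ℓ hℓM]
    push_cast
    rfl
  rw [hT, hl, Finset.sum_mul, Finsupp.finsetSum_apply, ← Finset.sum_sub_distrib]
  refine Finset.dvd_sum fun W hW => ?_
  rw [Finsupp.single_apply, Finsupp.single_apply]
  set e : ℤ := (W.ramificationIndexAlong β : ℤ) with hedef
  by_cases he : (3 : ℤ) ∣ e
  · split_ifs <;>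
      first
      | exact dvd_sub he (dvd_mul_of_dvd_left he _)
      | exact dvd_sub (dvd_zero _) (dvd_mul_of_dvd_left he _)
  have hWP : W.restrictAlong β hβi = P := Place.mem_fiberAlong.mp hW
  have hord : W.ord (β jM) = e * P.ord jM := by
    rw [← hWP]; exact Place.ord_restrictAlong β hβi W jM
  have hpos : 0 < W.ord (β jM) := by
    rw [hord]
    refine mul_pos (lt_of_le_of_ne (Int.natCast_nonneg _) fun h => he ?_) h0
    rw [← h]
    exact dvd_zero _
  have hα' : W.restrictAlong α hαi = P := by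
    rw [← hWP]
    refine Place.ext (SetLike.ext fun x => ?_)
    rw [Hecke.restrictAlong_toValuationSubring, Hecke.restrictAlong_toValuationSubring,
      ValuationSubring.mem_comap, ValuationSubring.mem_comap]
    show α x ∈ _ ↔ β x ∈ _
    rw [FF.mem_iff_ord_nonneg, FF.mem_iff_ord_nonneg,
      ord_alpha_eq_ord_beta_of_beta hℓM W hj hpos (fun h => by
        rw [hord] at h
        exact (Int.prime_three.dvd_or_dvd h).elim he h3) x]
  rw [hα']
  split_ifs <;> simp

variable {A : ValuationSubring Qbar} {k : Type*} [Field k] [IsAlgClosed k] {π : A →+* k}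

/-- Specialisation maps the zeros of `j - c` onto those of `j̄ - c̄`, and the poles of `j` onto
those of `j̄`. -/
theorem mapDomain_zeroDiv_poleDiv (hMk : (M : k) ≠ 0)
    {r : Place Qbar (modularFunctionFieldBar M) → Place k (modularFunctionFieldFullC k M)}
    (hr : IsPlaceReductionAlong A π M r) {jM : modularFunctionFieldBar M}
    (hj : (jM : LaurentSeries Qbar) = jqModC Qbar) (c : A) :
    Finsupp.mapDomain r (FF.zeroDiv (K := Qbar) (jM - algebraMap Qbar _ (c : Qbar))) =
        FF.zeroDiv (K := k) (jC k M - algebraMap k _ (π c)) ∧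
      Finsupp.mapDomain r (FF.poleDiv (K := Qbar) (jM - algebraMap Qbar _ (c : Qbar))) =
        FF.poleDiv (K := k) (jC k M - algebraMap k _ (π c)) := by
  classical
  set x := jM - algebraMap Qbar _ (c : Qbar) with hx
  set xk := jC k M - algebraMap k _ (π c) with hxk
  have htr : Transcendental Qbar jM := fun h => (MF.transcendental_jqModC (K := Qbar)) (by
    rw [← hj]; exact h.algHom (modularFunctionFieldBar M).val)
  have htrk : Transcendental k (jC k M) := fun h => (MF.transcendental_jqModC (K := k))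
    (h.algHom (modularFunctionFieldFullC k M).val)
  have hdiv : ∀ Q', Finsupp.mapDomain r (FF.divOf (K := Qbar) x) Q' = Q'.ord xk := by
    intro Q'
    set y : LaurentSeries A := jqModC A - HahnSeries.single 0 c
    have hy : coeffMap A.subtype y = (x : LaurentSeries Qbar) := by
      rw [map_sub, coeffMap_jqModC, coeffMap_single, hx, AddSubgroupClass.coe_sub, hj]
      exact congrArg _ (algebraMap_laurentSeries_eq_single Qbar (c : Qbar)).symm
    have hyk : coeffMap π y = (xk : LaurentSeries k) := by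
      rw [map_sub, coeffMap_jqModC, coeffMap_single, ← algebraMap_laurentSeries_eq_single]
      rfl
    have hmem : coeffMap A.subtype y ∈ modularFunctionFieldBar M := hy.symm ▸ x.2
    have hmemk : coeffMap π y ∈ modularFunctionFieldFullC k M := hyk.symm ▸ xk.2
    refine (hr.2 _ hmem hmemk (fun h => htrk ?_) _ (fun P => ?_) Q').trans
      (congrArg Q'.ord (Subtype.ext hyk))
    · have h0 : xk = 0 := Subtype.ext (hyk.symm.trans h)
      rw [hxk, sub_eq_zero] at h0
      rw [h0]
      exact isAlgebraic_algebraMap _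
    · exact congrArg P.ord (Subtype.ext hy.symm)
  have hdeg : Divisor.degree (FF.zeroDiv (K := Qbar) x) =
      Divisor.degree (FF.zeroDiv (K := k) xk) := by
    rw [FF.degree_zeroDiv_sub_const htr, FF.degree_zeroDiv_sub_const htrk]
    rw [Red.finrank_adjoin_eq_relfinrank, Red.finrank_adjoin_eq_relfinrank, hj,
      show modularFunctionFieldBar M = modularFunctionFieldFullC Qbar M from
        MF.laurentBaseChange_full_eq Qbar M,
      show ((jC k M : modularFunctionFieldFullC k M) : LaurentSeries k) = Igusa.jv 1 1 from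
        Igusa.jv_one_one.symm,
      show (jqModC Qbar : LaurentSeries Qbar) = Igusa.jv 1 1 from Igusa.jv_one_one.symm,
      Igusa.relfinrank_full M hMk, Igusa.relfinrank_full M (Nat.cast_ne_zero.mpr (NeZero.ne M))]
  set Z := Finsupp.mapDomain r (FF.zeroDiv (K := Qbar) x) - FF.zeroDiv (K := k) xk with hZ
  have hnn : ∀ (G : Divisor Qbar (modularFunctionFieldBar M)), (∀ P, 0 ≤ G P) →
      ∀ Q', 0 ≤ Finsupp.mapDomain r G Q' := fun G hG Q' => by
    rw [Finsupp.mapDomain, Finsupp.sum_apply]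
    refine Finset.sum_nonneg fun P _ => ?_
    simp only [Finsupp.single_apply]
    split_ifs
    exacts [hG P, le_rfl]
  have hsplit : ∀ Q', Finsupp.mapDomain r (FF.zeroDiv (K := Qbar) x) Q' -
      Finsupp.mapDomain r (FF.poleDiv (K := Qbar) x) Q' = Q'.ord xk := fun Q' => by
    rw [← Finsupp.sub_apply, ← Finsupp.mapDomain_sub, FF.zeroDiv_sub_poleDiv]
    exact hdiv Q'
  have hZnn : ∀ Q', 0 ≤ Z Q' := fun Q' => by
    have h1 := hnn (FF.poleDiv (K := Qbar) x)
      (fun P => by rw [FF.poleDiv_apply]; exact le_max_right _ _) Q'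
    have h2 := hnn (FF.zeroDiv (K := Qbar) x)
      (fun P => by rw [FF.zeroDiv_apply]; exact le_max_right _ _) Q'
    have h3 := hsplit Q'
    rw [hZ, Finsupp.sub_apply, FF.zeroDiv_apply]
    omega
  have hZ0 : Z = 0 := by
    have hdeg0 : Divisor.degree Z = 0 := by
      rw [hZ, map_sub, degree_mapDomain_of_deg_eq hr.1, hdeg, sub_self]
    rw [FF.degree_eq_sum, Finsupp.sum] at hdeg0
    refine Finsupp.ext fun Q => ?_
    by_contra h
    exact h ((Finset.sum_eq_zero_iff_of_nonneg fun v _ => hZnn v).mp hdeg0 Q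
      (Finsupp.mem_support_iff.mpr h))
  refine ⟨sub_eq_zero.mp hZ0, Finsupp.ext fun Q => ?_⟩
  have h3 := hsplit Q
  rw [sub_eq_zero.mp hZ0, FF.zeroDiv_apply] at h3
  rw [FF.poleDiv_apply]
  omega

/-- A nonnegative divisor vanishes over the points at which its image vanishes. -/
theorem eq_zero_of_mapDomain_eq_zero {α β : Type*} {r : α → β} {D : α →₀ ℤ} (hD : ∀ a, 0 ≤ D a)
    {b : β} (h : Finsupp.mapDomain r D b = 0) {a : α} (ha : r a = b) : D a = 0 := by
  classical
  by_contra hne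
  rw [Finsupp.mapDomain, Finsupp.sum_apply] at h
  have := (Finset.sum_eq_zero_iff_of_nonneg fun v _ => by
    simp only [Finsupp.single_apply]; split_ifs; exacts [hD v, le_rfl]).mp h a
    (Finsupp.mem_support_iff.mpr hne)
  simp only [Finsupp.single_apply, if_pos ha] at this
  exact hne this

/-- A place at which the order of `j̄` is positive and prime to `3` is the reduction of one. -/
theorem exists_reduction_ell (hMk : (M : k) ≠ 0)
    {r : Place Qbar (modularFunctionFieldBar M) → Place k (modularFunctionFieldFullC k M)}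
    (hr : IsPlaceReductionAlong A π M r) {jM : modularFunctionFieldBar M}
    (hj : (jM : LaurentSeries Qbar) = jqModC Qbar) {Q : Place k (modularFunctionFieldFullC k M)}
    (h0 : 0 < Q.ord (jC k M)) (h3 : ¬ (3 : ℤ) ∣ Q.ord (jC k M)) :
    ∃ P, r P = Q ∧ 0 < P.ord jM ∧ ¬ (3 : ℤ) ∣ P.ord jM := by
  classical
  have hz := (mapDomain_zeroDiv_poleDiv hMk hr hj (0 : A)).1
  simp only [ZeroMemClass.coe_zero, map_zero, sub_zero] at hz
  have hQ : ¬ (3 : ℤ) ∣ Finsupp.mapDomain r (FF.zeroDiv (K := Qbar) jM) Q := by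
    rw [hz, FF.zeroDiv_apply, max_eq_left h0.le]
    exact h3
  obtain ⟨P, hPQ, hP⟩ : ∃ P, r P = Q ∧ ¬ (3 : ℤ) ∣ FF.zeroDiv (K := Qbar) jM P := by
    by_contra hc
    push Not at hc
    refine hQ ?_
    rw [Finsupp.mapDomain, Finsupp.sum_apply]
    refine Finset.dvd_sum fun P _ => ?_
    simp only [Finsupp.single_apply]
    split_ifs with h
    exacts [hc P h, dvd_zero _]
  rw [FF.zeroDiv_apply] at hP
  have hpos : 0 < P.ord jM := by
    by_contra h
    rw [max_eq_right (not_lt.mp h)] at hP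
    exact hP (dvd_zero _)
  exact ⟨P, hPQ, hpos, by rwa [max_eq_left hpos.le] at hP⟩

/-- `T_ℓ ≡ ℓ + 1 (mod 3)` on the divisors of degree zero supported, modulo `3`, on the elliptic
places. -/
theorem dvd_heckeDivC_sub (hℓM : ¬ ℓ ∣ M) (hK : ((M * ℓ : ℕ) : k) ≠ 0)
    (hπ : Function.Surjective π) (h : ReductionInputsAlong A π M)
    {E : Divisor k (modularFunctionFieldFullC k M)} (hE0 : Divisor.degree E = 0)
    (hE : ∀ Q, ¬ (3 : ℤ) ∣ E Q → 0 < Q.ord (jC k M) ∧ ¬ (3 : ℤ) ∣ Q.ord (jC k M))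
    (Q : Place k (modularFunctionFieldFullC k M)) :
    (3 : ℤ) ∣ heckeDivC k M ℓ E Q - ((ℓ : ℤ) + 1) * E Q := by
  classical
  obtain ⟨r, hr, hgen⟩ := h
  have hj' : jqModC Qbar ∈ modularFunctionFieldBar M := by
    show jqModC Qbar ∈ laurentBaseChange Qbar (modularFunctionFieldFull M)
    rw [MF.laurentBaseChange_full_eq Qbar M]
    simpa [qExpand_one_apply] using jqModCd_mem_full Qbar M (one_dvd M)
  set jM : modularFunctionFieldBar M := ⟨jqModC Qbar, hj'⟩
  have hMk : (M : k) ≠ 0 := Igusa.natCast_ne_zero_of_dvd hK (dvd_mul_right M ℓ)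
  have hs : ∀ Q', ∃ P, r P = Q' ∧ (¬ (3 : ℤ) ∣ E Q' → 0 < P.ord jM ∧ ¬ (3 : ℤ) ∣ P.ord jM) := by
    intro Q'
    by_cases hQ : (3 : ℤ) ∣ E Q'
    · obtain ⟨P, hP⟩ := placeReduction_surjective hπ hr Q'
      exact ⟨P, hP, fun h => absurd hQ h⟩
    · obtain ⟨h0, h3⟩ := hE Q' hQ
      obtain ⟨P, hP, h'⟩ := exists_reduction_ell hMk hr (jM := jM) rfl h0 h3
      exact ⟨P, hP, fun _ => h'⟩
  choose s hs₁ hs₂ using hs
  set D := Finsupp.mapDomain s E with hDdef
  have hrD : Finsupp.mapDomain r D = E := by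
    rw [hDdef, ← Finsupp.mapDomain_comp, show r ∘ s = id from funext hs₁, Finsupp.mapDomain_id]
  have hD : D ∈ Divisor.degZero (K := Qbar) (F := modularFunctionFieldBar M) := by
    rw [Divisor.mem_degZero, ← degree_mapDomain_of_deg_eq hr.1, hrD, hE0]
  set T := heckeDivBar (Hecke.alphaIntegral Qbar M ℓ) (Hecke.betaIntegral Qbar M ℓ) with hT
  have hP : ∀ P R, (3 : ℤ) ∣ T (Finsupp.single P (D P)) R -
      ((ℓ : ℤ) + 1) * Finsupp.single P (D P) R := by
    intro P R
    rw [show Finsupp.single P (D P) = D P • Finsupp.single P (1 : ℤ) by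
      rw [Finsupp.smul_single, smul_eq_mul, mul_one], map_zsmul, Finsupp.smul_apply,
      Finsupp.smul_apply, smul_eq_mul, smul_eq_mul, mul_left_comm, ← mul_sub]
    by_cases h3 : (3 : ℤ) ∣ D P
    · exact dvd_mul_of_dvd_left h3 _
    refine dvd_mul_of_dvd_right ?_ _
    have : ∃ Q', s Q' = P ∧ ¬ (3 : ℤ) ∣ E Q' := by
      by_contra hc
      push Not at hc
      refine h3 ?_
      rw [hDdef, Finsupp.mapDomain, Finsupp.sum_apply]
      refine Finset.dvd_sum fun Q' _ => ?_
      simp only [Finsupp.single_apply]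
      split_ifs with h
      exacts [hc Q' h, dvd_zero _]
    obtain ⟨Q', rfl, hQ'⟩ := this
    exact dvd_heckeDivBar_single hℓM _ (jM := jM) rfl (hs₂ Q' hQ').1 (hs₂ Q' hQ').2 R
  have hTD : ∀ R, (3 : ℤ) ∣ T D R - ((ℓ : ℤ) + 1) * D R := by
    intro R
    conv => congr; · skip
            · rw [← D.sum_single]
    rw [Finsupp.sum, map_sum, Finsupp.finsetSum_apply, Finsupp.finsetSum_apply, Finset.mul_sum,
      ← Finset.sum_sub_distrib]
    exact Finset.dvd_sum fun P _ => hP P R
  have hcomm := mapDomain_heckeDivBar hℓM hK hr hgen hD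
  rw [hrD] at hcomm
  have hQ : heckeDivC k M ℓ E Q - ((ℓ : ℤ) + 1) * E Q =
      Finsupp.mapDomain r (T D - ((ℓ : ℤ) + 1) • D) Q := by
    rw [Finsupp.mapDomain_sub, Finsupp.mapDomain_smul, Finsupp.sub_apply, Finsupp.smul_apply,
      smul_eq_mul, hrD, hcomm]
  rw [hQ, Finsupp.mapDomain, Finsupp.sum_apply]
  refine Finset.dvd_sum fun R _ => ?_
  simp only [Finsupp.single_apply]
  split_ifs
  · rw [Finsupp.sub_apply, Finsupp.smul_apply, smul_eq_mul]
    exact hTD R
  · exact dvd_zero _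

/-- **No defect of thickness three.** -/
theorem three_dvd_ord_of_norm_rel (hℓM : ¬ ℓ ∣ M) (hK : ((M * ℓ : ℕ) : k) ≠ 0)
    (hπ : Function.Surjective π) (h : ReductionInputsAlong A π M)
    {g : modularFunctionFieldFullC k M} (hg : g ≠ 0) {a : ℤ} {t : k} (ht : t ≠ 0)
    {w : modularFunctionFieldFullC k M} (hw : w ≠ 0)
    (hrel : normC k M ℓ g = algebraMap k _ t * g ^ a * w ^ 3)
    (hoff : ∀ Q : Place k (modularFunctionFieldFullC k M), ¬ (3 : ℤ) ∣ Q.ord g →
      0 < Q.ord (jC k M) ∧ ¬ (3 : ℤ) ∣ Q.ord (jC k M))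
    (ha : ¬ (3 : ℤ) ∣ a - ((ℓ : ℤ) + 1)) (Q : Place k (modularFunctionFieldFullC k M)) :
    (3 : ℤ) ∣ Q.ord g := by
  have h1 := dvd_heckeDivC_sub hℓM hK hπ h (E := FF.divOf (K := k) g) (FF.degree_divOf g)
    (fun R hR => hoff R (by rwa [FF.divOf_apply] at hR)) Q
  rw [heckeDivC_div hg (fun R => FF.divOf_apply g R) Q, hrel, FF.divOf_apply,
    Q.ord_mul (mul_ne_zero ((map_ne_zero _).mpr ht) (zpow_ne_zero _ hg)) (pow_ne_zero _ hw),
    Q.ord_mul ((map_ne_zero _).mpr ht) (zpow_ne_zero _ hg), FF.ord_pow, Q.ord_zpow,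
    FF.ord_algebraMap, zero_add] at h1
  push_cast at h1
  have h2 : (3 : ℤ) ∣ (a - ((ℓ : ℤ) + 1)) * Q.ord g := by
    obtain ⟨c, hc⟩ := h1
    exact ⟨c - Q.ord w, by linear_combination hc⟩
  exact (Int.prime_three.dvd_or_dvd h2).resolve_left ha

end Fermat.Agent.LoweringAtP.Three

end
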