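import Fermat.Agent.FF.Places
import Fermat.Agent.LoweringAtP.Model.UnitOrders
import Fermat.Agent.LoweringAtP.Three.Cusp
import Fermat.Agent.LoweringAtP.Three.JBar

/-!
# The support of a defect in characteristic `3`

If the pullback of `g` to a level `N t` without elliptic points has all orders divisible by `3`,
so has `g`, outside the places over `j̄ = 0` at which the order of `j̄` is prime to `3`.
-/

noncomputable section

open ModularCurve AlgebraicCurve Fermat.Agent.Igusa

namespace Fermat.Agent.LoweringAtP.Three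

/-- Without elliptic points `j̄` has order `6` at its zeros, in characteristic `3`. -/
theorem ord_jC_eq_six {L : ℕ} [NeZero L] [Fact (Nat.Prime 3)] (h3L : ¬ 3 ∣ L)
    {A : ValuationSubring (AlgebraicClosure ℚ)} {k : Type*} [Field k] [CharP k 3] [IsAlgClosed k]
    {π : A →+* k} (hres : TwoComponent.ResidueAt A 3 π)
    (hgen : genusFF (AlgebraicClosure ℚ) (modularFunctionFieldBar L) ≤ genusFF k
      (TwoComponent.CK L k))
    (hell : Model.NoEll L) {Q : Place k (TwoComponent.CK L k)}
      (h0 : 0 < Q.ord (HeckeCompat.jC k L)) :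
    Q.ord (HeckeCompat.jC k L) = 6 := by
  have h2 := ord_eq_two_mul_ord_jC (N := L) (u := Model.unitBarC L 3 h3L hres)
    (Model.coe_unitBarC L 3 h3L hres) (jb := HeckeCompat.jC k L) rfl Q
  have hx : (TwoComponent.xbC L 3 : TwoComponent.CK L k) ∈ Q.toValuationSubring := by
    refine (Model.xbC_mem_iff L 3 Q).mpr ((FF.mem_iff_ord_nonneg Q).mpr ?_)
    rw [show (TwoComponent.jbC L : TwoComponent.CK L k) = HeckeCompat.jC k L from Subtype.ext
      Igusa.jv_one_one]
    exact h0.le
  by_cases hn : Q ∈ (TwoComponent.graphAlg L 3 h3L hres hgen).nodeSet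
  · rw [Model.ord_unitBarC_node L 3 h3L hres hgen hell hn] at h2
    omega
  · rw [Model.ord_unitBarC_of_not_node L 3 h3L hres hgen hx hn] at h2
    omega

variable {k : Type*} [Field k] [IsAlgClosed k] {N t : ℕ} [NeZero N] [NeZero (N * t)]

/-- There is a place over every place. -/
theorem exists_restrictAlong_eq [Fact t.Prime] (hK : ((N * t : ℕ) : k) ≠ 0) (htN : ¬ t ∣ N)
    [FF.IsFunctionField k (TwoComponent.CK N k)] [FF.IsFunctionField k (TwoComponent.CK (N * t) k)]
    (Q : Place k (TwoComponent.CK N k)) :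
    ∃ Q' : Place k (TwoComponent.CK (N * t) k),
      Q'.restrictAlong (HeckeCompat.inclC k (dvd_mul_right N t)) (Setup.integral_along _) = Q := by
  set φ := HeckeCompat.inclC k (dvd_mul_right N t)
  by_contra hne
  push Not at hne
  have h := Divisor.degree_pullbackAlong φ (Setup.integral_along φ)
    (Hecke.fundamentalIdentityAlong φ (Setup.integral_along φ)) (Finsupp.single Q 1)
  have hempty : Place.fiberAlong φ (Setup.integral_along φ) Q = ∅ :=
    Finset.eq_empty_of_forall_notMem fun W hW => hne W (Place.mem_fiberAlong.mp hW)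
  rw [Divisor.pullbackAlong_single, hempty, Finset.sum_empty, map_zero, Divisor.degree_single,
    FF.place_deg_eq_one, finrankAlong_inclC hK htN] at h
  simp at h
  omega

/-- **Support of a defect.** -/
theorem ell_of_not_dvd [Fact t.Prime] (hK : ((N * t : ℕ) : k) ≠ 0) (htN : ¬ t ∣ N)
    [FF.IsFunctionField k (TwoComponent.CK N k)] [FF.IsFunctionField k (TwoComponent.CK (N * t) k)]
    (hgeneric : ∀ (Q : Place k (TwoComponent.CK (N * t) k)) (a : k), a ≠ 0 →
      0 < Q.ord (HeckeCompat.jC k (N * t) - algebraMap k _ a) →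
      ¬ (3 : ℤ) ∣ Q.ord (HeckeCompat.jC k (N * t) - algebraMap k _ a))
    (hzero : ∀ Q : Place k (TwoComponent.CK (N * t) k), 0 < Q.ord (HeckeCompat.jC k (N * t)) →
      Q.ord (HeckeCompat.jC k (N * t)) = 6)
    {g : TwoComponent.CK N k}
    (hpull : ∀ Q' : Place k (TwoComponent.CK (N * t) k),
      (3 : ℤ) ∣ Q'.ord (HeckeCompat.inclC k (dvd_mul_right N t) g))
    (Q : Place k (TwoComponent.CK N k)) (hQ : ¬ (3 : ℤ) ∣ Q.ord g) :
    0 < Q.ord (HeckeCompat.jC k N) ∧ ¬ (3 : ℤ) ∣ Q.ord (HeckeCompat.jC k N) := by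
  set φ := HeckeCompat.inclC k (dvd_mul_right N t)
  have hj : φ (HeckeCompat.jC k N) = HeckeCompat.jC k (N * t) :=
    Subtype.ext (HeckeCompat.coe_inclC _ _)
  obtain ⟨Q', hQ'⟩ := exists_restrictAlong_eq hK htN Q
  set e : ℤ := (Place.ramificationIndexAlong φ Q' : ℤ)
  have hord : ∀ x, Q'.ord (φ x) = e * Q.ord x := fun x => by
    rw [Place.ord_restrictAlong φ (Setup.integral_along φ) Q' x, hQ']
  have he0 : 0 < e := by
    let := algebraAlong φ
    have := isScalarTower_along φ
    have := isIntegral_along φ (Setup.integral_along φ)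
    exact Int.natCast_pos.mpr (Place.ramificationIndex_pos (F := TwoComponent.CK N k) (w := Q'))
  have he : (3 : ℤ) ∣ e := by
    have h := hpull Q'
    rw [hord] at h
    exact (Int.prime_three.dvd_or_dvd h).resolve_right hQ
  rcases lt_trichotomy (Q.ord (HeckeCompat.jC k N)) 0 with hlt | heq | hgt
  · obtain ⟨Q₁, hQ₁⟩ := exists_place_unramified_of_cusp hK htN Q hlt
    have h := hpull Q₁
    rw [hQ₁] at h
    exact absurd h hQ
  · exfalso
    obtain ⟨a, ha⟩ := FF.exists_const Q (f := HeckeCompat.jC k N) heq.ge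
    have htr : Transcendental k (HeckeCompat.jC k N) := fun h =>
      (MF.transcendental_jqModC (K := k)) (h.algHom (modularFunctionFieldFullC k N).val)
    have hpos : 0 < Q.ord (HeckeCompat.jC k N - algebraMap k _ a) := ha.resolve_left fun h =>
      htr (sub_eq_zero.mp h ▸ isAlgebraic_algebraMap a)
    have ha0 : a ≠ 0 := fun h => by
      rw [h, map_zero, sub_zero, heq] at hpos
      exact lt_irrefl _ hpos
    have hj' : HeckeCompat.jC k (N * t) - algebraMap k _ a = φ
      (HeckeCompat.jC k N - algebraMap k _ a) := by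
      rw [map_sub, hj, φ.commutes]
    refine hgeneric Q' a ha0 ?_ ?_
    · rw [hj', hord]
      exact mul_pos he0 hpos
    · rw [hj', hord]
      exact dvd_mul_of_dvd_left he _
  · refine ⟨hgt, fun h3 => ?_⟩
    have h6 := hzero Q' (by
      rw [← hj, hord]
      exact mul_pos he0 hgt)
    rw [← hj, hord] at h6
    obtain ⟨x, hx⟩ := h3
    obtain ⟨y, hy⟩ := he
    rw [hx, hy] at h6
    have h9 : (9 : ℤ) ∣ 6 := ⟨y * x, by linarith⟩
    omega

end Fermat.Agent.LoweringAtP.Three
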