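import Fermat.Agent.LoweringAtP.OddPrimes.Lowering
import Fermat.Agent.LoweringAtP.Three.FlatPoint
import Fermat.Agent.LoweringAtP.Three.Generic
import Fermat.Agent.LoweringAtP.Three.Principal
import Fermat.Agent.LoweringAtP.Three.RedPowers
import Fermat.Agent.LoweringAtP.Three.Special
import Fermat.Agent.LoweringAtP.Three.Support

/-!
# Lowering at `3` along an auxiliary covering

An auxiliary prime `t ≡ 11 (mod 12)` gives a level without elliptic points; the covering has no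
subcovering of degree `3`, and the defect at the elliptic points of level `M` is killed by the
congruence `T_ℓ ≡ ℓ + 1 (mod 3)` there.
-/

noncomputable section

open ModularCurve AlgebraicCurve WeierstrassCurve WeierstrassCurve.Affine.Point
open scoped WeierstrassCurve.Affine

namespace Fermat.Agent.LoweringAtP.Three

local notation "Qbar" => AlgebraicClosure ℚ

/-- **No defect along the auxiliary covering.** -/
theorem three_dvd_of_pullback {W : WeierstrassCurve ℤ} [Fact (Nat.Prime 3)] (hΔ : W.Δ ≠ 0)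
    (hirr : W.ModRepIsIrreducible 3) {N t : ℕ} [NeZero N] [NeZero (N * t)] [Fact t.Prime]
    (h3 : ¬ 3 ∣ N * t) (htN : ¬ t ∣ N) (hell : Model.NoEll (N * t))
    {A : ValuationSubring Qbar} (hA : A.LiesOverPrime 3)
    [CharP (IsLocalRing.ResidueField A) 3] [IsAlgClosed (IsLocalRing.ResidueField A)]
    (S : Finset ℕ)
    (g : TwoComponent.CK N (IsLocalRing.ResidueField A)) (hg : g ≠ 0)
    (hpull : ∀ Q' : Place (IsLocalRing.ResidueField A)
          (TwoComponent.CK (N * t) (IsLocalRing.ResidueField A)),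
      (3 : ℤ) ∣ Q'.ord (HeckeCompat.inclC (IsLocalRing.ResidueField A) (dvd_mul_right N t) g))
    (hrel : ∀ (r : ℕ) [NeZero r] [Fact r.Prime], ¬ r ∣ N → r ≠ 3 → r ∉ S →
      ∃ c : IsLocalRing.ResidueField A, c ≠ 0 ∧
      ∃ w : TwoComponent.CK N (IsLocalRing.ResidueField A), w ≠ 0 ∧
        HeckeCompat.normC (IsLocalRing.ResidueField A) N r g =
          algebraMap (IsLocalRing.ResidueField A) _ c * g ^ W.apOfModel r * w ^ 3)
    (Q : Place (IsLocalRing.ResidueField A) (TwoComponent.CK N (IsLocalRing.ResidueField A))) :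
    (3 : ℤ) ∣ Q.ord g := by
  classical
  have h3N : ¬ 3 ∣ N := fun h => h3 (h.mul_right t)
  have := TwoComponent.isFunctionField_CK N 3 h3N (k := IsLocalRing.ResidueField A)
  have := TwoComponent.isFunctionField_CK (N * t) 3 h3 (k := IsLocalRing.ResidueField A)
  have hK : ((N * t : ℕ) : IsLocalRing.ResidueField A) ≠ 0 := fun h =>
    h3 ((CharP.cast_eq_zero_iff _ 3 _).mp h)
  obtain ⟨ℓ, hℓ, hℓS, hℓ3, hne⟩ :=
    HeckeCompat.exists_prime_not_eisenstein (p := 3) (by norm_num) hΔ hirr (S ∪ N.primeFactors)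
  have : Fact ℓ.Prime := ⟨hℓ⟩
  have : NeZero ℓ := ⟨hℓ.ne_zero⟩
  rw [Finset.mem_union, not_or] at hℓS
  have hℓN : ¬ ℓ ∣ N := fun h => hℓS.2 (Nat.mem_primeFactors.mpr ⟨hℓ, h, NeZero.ne N⟩)
  obtain ⟨c, hc, w, hw, hr⟩ := hrel ℓ hℓN hℓ3 hℓS.1
  have hKℓ : ((N * ℓ : ℕ) : IsLocalRing.ResidueField A) ≠ 0 := fun h => by
    rcases Nat.prime_three.dvd_mul.mp ((CharP.cast_eq_zero_iff _ 3 _).mp h) with h' | h'
    · exact h3N h'
    · exact hℓ3 ((Nat.prime_dvd_prime_iff_eq Nat.prime_three hℓ).mp h').symm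
  have h1728 : (1728 : IsLocalRing.ResidueField A) = 0 := by
    exact_mod_cast (CharP.cast_eq_zero_iff (IsLocalRing.ResidueField A) 3 1728).mpr ⟨576, rfl⟩
  -- `j̄` is unramified over the nonzero values, as `1728 = 0`
  have hgeneric : ∀ (Q' : Place (IsLocalRing.ResidueField A)
        (TwoComponent.CK (N * t) (IsLocalRing.ResidueField A))) (a : IsLocalRing.ResidueField A),
      a ≠ 0 → 0 < Q'.ord (HeckeCompat.jC (IsLocalRing.ResidueField A) (N * t) - algebraMap _ _ a) →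
      ¬ (3 : ℤ) ∣ Q'.ord (HeckeCompat.jC (IsLocalRing.ResidueField A) (N * t) -
        algebraMap _ _ a) := fun Q' a ha hQ => by
    rw [ord_jC_sub_eq_one hK IsLocalRing.residue_surjective (Red.genus_le A h3 hA)
      (Red.reductionInputsModL A h3 hA) ha (h1728 ▸ ha) hQ]
    norm_num
  exact three_dvd_ord_of_norm_rel hℓN hKℓ IsLocalRing.residue_surjective
    (Red.reductionInputsModL A h3N hA) hg hc hw hr
    (ell_of_not_dvd hK htN hgeneric
      (fun Q h => ord_jC_eq_six h3 (Setup.residueAt hA) (Red.genus_le A h3 hA) hell h) hpull)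
    (by exact_mod_cast hne) Q

/-- **Lowering at `3` from flat points.** -/
theorem lowering_three_of_flat {W : WeierstrassCurve ℤ} [Fact (Nat.Prime 3)] (hΔ : W.Δ ≠ 0)
    (hirr : W.ModRepIsIrreducible 3)
    {M : ℕ} [NeZero M] (h3M : ¬ 3 ∣ M)
    (hflat : ∀ A : ValuationSubring Qbar, A.LiesOverPrime 3 → OddPrimes.HasFlatPoint W 3 A)
    (hmod : W.IsResiduallyModularOfLevel 3 (M * 3)) : W.IsResiduallyModularOfLevel 3 M := by
  have hp2 : (3 : ℕ) ≠ 2 := by norm_num
  obtain ⟨t, htM, ht, ht12⟩ :=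
    Nat.forall_exists_prime_gt_and_modEq (M * 3) (q := 12) (a := 11) (by norm_num) (by norm_num)
  have : Fact t.Prime := ⟨ht⟩
  have ht12' : t % 12 = 11 := ht12
  have htM3 : ¬ t ∣ M * 3 := fun h => by
    have := Nat.le_of_dvd (Nat.pos_of_ne_zero (mul_ne_zero (NeZero.ne M) (by norm_num))) h
    omega
  have htM' : ¬ t ∣ M := fun h => htM3 (h.mul_right 3)
  have h3t : ¬ 3 ∣ t := by omega
  have hpL : ¬ 3 ∣ M * t := fun h => (Nat.prime_three.dvd_mul.mp h).elim h3M h3t
  have : NeZero (M * t) := ⟨mul_ne_zero (NeZero.ne M) ht.ne_zero⟩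
  have : NeZero (M * 3) := ⟨mul_ne_zero (NeZero.ne M) (by norm_num)⟩
  have hell : Model.NoEll (M * t) :=
    (Model.noEll_of_prime ht ht12').of_dvd (dvd_mul_left t M)
  have hML : M ∣ M * t := dvd_mul_right M t
  obtain ⟨A, hA⟩ := Gal.exists_liesOverPrime Nat.prime_three
  have := Red.charP_residueField A hA
  have := Red.isAlgClosed_residueField A
  let MI := Model.modelInputs (M * t) 3 hpL (Setup.residueAt hA) (Red.genus_le A hpL hA) hell
  obtain ⟨Ins⟩ := Attach.nonempty_jacobianInputs (M * 3) 3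
  obtain ⟨ι, hι, hequiv, htor, heig⟩ :=
    HeckeCompat.exists_galois_map_of_residuallyModular hp2 hΔ Ins hirr hmod
  obtain ⟨x, s, a, hx, ha, ha0, he, hfix⟩ := hflat A hA
  have hroot : ∀ (f : TwoComponent.FN M 3) (h : TwoComponent.FN (M * t) 3),
      h ^ 3 = Setup.levelMap 3 hML f → ∃ g, Setup.levelMap 3 hML g = h := fun f h hh =>
    exists_levelMap_eq_of_pow_eq htM3 Nat.prime_three (by omega) hh
  obtain ⟨H, hH, hcase⟩ : ∃ H : Subgroup (Qbar ≃ₐ[ℚ] Qbar), (∀ σ ∈ H, σ • x = x) ∧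
      (H = A.inertiaSubgroupIn ℚ ∨ A.valuation (a ⟨1, Nat.prime_three.one_lt⟩ : Qbar) = 1 ∧
        H = Setup.inertiaStab A (s : Qbar)) :=
    hfix.elim (fun h => ⟨_, h, Or.inl rfl⟩) fun h => ⟨_, h.2, Or.inr ⟨h.1, rfl⟩⟩
  obtain ⟨D, f₀, hD, heig', hf₀, hdiv, hfc⟩ :=
    Setup.exists_class_of_map ι hι hequiv htor heig hx hH
  exact levelArgument_of_noRoots hML hroot hp2 MI hD hf₀ hdiv ha ha0 he
    (by rcases hcase with rfl | ⟨ha1, rfl⟩; exacts [Or.inl hfc, Or.inr ⟨ha1, hfc⟩])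
    fun X hX hoff => heckeInputs_of hp2 hML hpL hΔ hirr hA MI hf₀ hdiv heig' X hX hoff
      fun g hg hp hr => three_dvd_of_pullback hΔ hirr hpL htM' hell hA _ g hg hp hr

end Fermat.Agent.LoweringAtP.Three
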